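import Fermat.Agent.MF.Descent
import Fermat.Agent.SquareLevel.Shortcuts

/-!
# Degrees over a transcendental element do not change under extension of the constants
-/

noncomputable section

open Polynomial IntermediateField
open ModularCurve (coeffMap)

namespace Fermat.Agent.SquareLevel

variable {k K : Type*} [Field k] [Field K] [Algebra k K]

theorem coeffMap_mem_adjoin_simple {x y : LaurentSeries k} (hy : y ∈ k⟮x⟯) :
    coeffMap (algebraMap k K) y ∈ K⟮coeffMap (algebraMap k K) x⟯ := by
  have h := MF.coeffMap_mem_adjoin (K := K) hy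
  rwa [Set.image_singleton] at h

/-- Series independent over `k(x)` stay independent over `K(x)`. -/
theorem linearIndependent_coeffMap {x : LaurentSeries k} (htr : Transcendental k x) {ι : Type*}
    [Fintype ι] {v : ι → LaurentSeries k} (hv : LinearIndependent k⟮x⟯ v) :
    LinearIndependent K⟮coeffMap (algebraMap k K) x⟯ fun i => coeffMap (algebraMap k K) (v i) := by
  classical
  set φ := coeffMap (algebraMap k K)
  -- polynomial relations
  have key : ∀ R : ι → K[X], ∑ i, aeval (φ x) (R i) * φ (v i) = 0 → ∀ i, R i = 0 := by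
    intro R hR i
    set d := (Finset.univ.sup fun i => (R i).natDegree) + 1
    have hd : ∀ i, (R i).natDegree < d := fun i =>
      Nat.lt_succ_of_le (Finset.le_sup (f := fun i => (R i).natDegree) (Finset.mem_univ i))
    have hrel : ∑ p ∈ (Finset.univ : Finset ι) ×ˢ Finset.range d,
        algebraMap K (LaurentSeries K) ((R p.1).coeff p.2) * φ (x ^ p.2 * v p.1) = 0 := by
      rw [Finset.sum_product, ← hR]
      refine Finset.sum_congr rfl fun i _ => ?_
      rw [aeval_eq_sum_range' (hd i), Finset.sum_mul]
      refine Finset.sum_congr rfl fun n _ => ?_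
      rw [Algebra.smul_def, map_mul, map_pow, mul_assoc]
    ext n
    rw [coeff_zero]
    by_cases hn : n < d
    swap
    · exact coeff_eq_zero_of_natDegree_lt (lt_of_lt_of_le (hd i) (not_lt.mp hn))
    refine (Module.forall_dual_apply_eq_zero_iff k _).mp fun π => ?_
    have h := MF.linear_relation_descend _ _ _ hrel π
    let P : ι → k[X] := fun i => ∑ n ∈ Finset.range d, C (π ((R i).coeff n)) * X ^ n
    have h' : ∑ i, (⟨aeval x (P i), algebra_adjoin_le_adjoin k _
        (aeval_mem_adjoin_singleton k x)⟩ : k⟮x⟯) • v i = 0 := by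
      rw [← h, Finset.sum_product]
      refine Finset.sum_congr rfl fun i _ => ?_
      show aeval x (P i) * v i = _
      simp only [P, map_sum, map_mul, map_pow, aeval_C, aeval_X, Finset.sum_mul, mul_assoc]
    have h0 : P i = 0 := by
      refine (transcendental_iff.mp htr) _ ?_
      exact congrArg Subtype.val (Fintype.linearIndependent_iff.mp hv _ h' i)
    have h1 := congrArg (fun p : k[X] => p.coeff n) h0
    simp only [P, finsetSum_coeff, coeff_C_mul_X_pow, coeff_zero] at h1
    rw [Finset.sum_ite_eq, if_pos (Finset.mem_range.mpr hn)] at h1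
    exact h1
  rw [Fintype.linearIndependent_iff]
  intro g hg i
  -- common denominator
  have hrep : ∀ i, ∃ a b : K[X], aeval (φ x) b ≠ 0 ∧
      (g i : LaurentSeries K) = aeval (φ x) a / aeval (φ x) b := fun i => by
    obtain ⟨a, b, hab⟩ := (mem_adjoin_simple_iff K (g i : LaurentSeries K)).mp (g i).2
    by_cases hb : aeval (φ x) b = 0
    · exact ⟨0, 1, by simp, by rw [hab, hb, div_zero, map_zero, zero_div]⟩
    · exact ⟨a, b, hb, hab⟩
  choose a b hb hab using hrep
  have h0 := key (fun i => a i * ∏ j ∈ Finset.univ.erase i, b j) ?_ i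
  · have hai : a i = 0 := by
      refine (mul_eq_zero.mp h0).resolve_right (Finset.prod_ne_zero_iff.mpr fun j _ hj => hb j ?_)
      rw [hj, map_zero]
    exact Subtype.ext (by rw [hab, hai, map_zero, zero_div]; rfl)
  · have hg' : ∑ i, (g i : LaurentSeries K) * φ (v i) = 0 := hg
    calc ∑ i, aeval (φ x) (a i * ∏ j ∈ Finset.univ.erase i, b j) * φ (v i)
        = ∑ i, (∏ j, aeval (φ x) (b j)) * ((g i : LaurentSeries K) * φ (v i)) := by
          refine Finset.sum_congr rfl fun i _ => ?_
          rw [← Finset.mul_prod_erase Finset.univ _ (Finset.mem_univ i), map_mul, map_prod, hab]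
          field_simp [hb i]
      _ = 0 := by rw [← Finset.mul_sum, hg', mul_zero]

/-- `[K(S) : K(x)] = [k(S) : k(x)]` for series with coefficients in `k`. -/
theorem relfinrank_baseChange {S : Set (LaurentSeries k)} {x : LaurentSeries k}
    (hx : x ∈ adjoin k S) (htr : Transcendental k x)
    (hfin : relfinrank K⟮coeffMap (algebraMap k K) x⟯
      (adjoin K (coeffMap (algebraMap k K) '' S)) ≠ 0) :
    relfinrank k⟮x⟯ (adjoin k S) =
      relfinrank K⟮coeffMap (algebraMap k K) x⟯ (adjoin K (coeffMap (algebraMap k K) '' S)) := by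
  classical
  set φ := coeffMap (algebraMap k K)
  have hle : k⟮x⟯ ≤ adjoin k S := adjoin_simple_le_iff.mpr hx
  have hle' : K⟮φ x⟯ ≤ adjoin K (φ '' S) :=
    adjoin_simple_le_iff.mpr (MF.coeffMap_mem_adjoin hx)
  rw [relfinrank_eq_finrank_of_le hle'] at hfin
  rw [relfinrank_eq_finrank_of_le hle, relfinrank_eq_finrank_of_le hle']
  set Y := extendScalars hle'
  set X' := extendScalars hle
  have : Module.Free k⟮x⟯ X' := Module.Free.of_divisionRing k⟮x⟯ X'
  have : FiniteDimensional K⟮φ x⟯ Y := FiniteDimensional.of_finrank_pos (Nat.pos_of_ne_zero hfin)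
  have : Algebra.IsAlgebraic K⟮φ x⟯ Y := Algebra.IsAlgebraic.of_finite K⟮φ x⟯ Y
  have hmemY : ∀ y ∈ X', φ y ∈ Y := fun y hy => MF.coeffMap_mem_adjoin (S := S) hy
  -- independence
  have hcard : ∀ s : Finset X', LinearIndependent k⟮x⟯ (fun i : s => (i : X')) →
      s.card ≤ Module.finrank K⟮φ x⟯ Y := by
    intro s hs
    have h := linearIndependent_coeffMap (K := K) htr
      (hs.map' X'.val.toLinearMap (LinearMap.ker_eq_bot.mpr X'.val.injective))
    have h2 : LinearIndependent K⟮φ x⟯ (fun i : s => (⟨φ ((i : X') : LaurentSeries k),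
        hmemY _ (i : X').2⟩ : Y)) :=
      LinearIndependent.of_comp Y.val.toLinearMap h
    simpa using h2.fintype_card_le_finrank
  have : FiniteDimensional k⟮x⟯ X' :=
    Module.rank_lt_aleph0_iff.mp ((rank_le hcard).trans_lt Cardinal.natCast_lt_aleph0)
  set e := Module.finBasis k⟮x⟯ X'
  refine le_antisymm ?_ ?_
  · have h := linearIndependent_coeffMap (K := K) htr
      (e.linearIndependent.map' X'.val.toLinearMap (LinearMap.ker_eq_bot.mpr X'.val.injective))
    have h2 : LinearIndependent K⟮φ x⟯ (fun i => (⟨φ (e i : LaurentSeries k),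
        hmemY _ (e i).2⟩ : Y)) := LinearIndependent.of_comp Y.val.toLinearMap h
    simpa using h2.fintype_card_le_finrank
  -- spanning
  set v : Fin (Module.finrank k⟮x⟯ X') → LaurentSeries K := fun i => φ (e i : LaurentSeries k)
  set T : Submodule K⟮φ x⟯ (LaurentSeries K) := Submodule.span K⟮φ x⟯ (Set.range v)
  have himg : ∀ y ∈ adjoin k S, φ y ∈ T := by
    intro y hy
    have h := congrArg (fun z : X' => φ (z : LaurentSeries k)) (e.sum_repr ⟨y, hy⟩)
    simp only [AddSubmonoidClass.coe_finsetSum, map_sum] at h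
    rw [← h]
    refine T.sum_mem fun i _ => ?_
    show φ ((e.repr ⟨y, hy⟩ i : LaurentSeries k) * (e i : LaurentSeries k)) ∈ T
    rw [map_mul]
    exact T.smul_mem (⟨_, coeffMap_mem_adjoin_simple (e.repr ⟨y, hy⟩ i).2⟩ : K⟮φ x⟯)
      (Submodule.subset_span ⟨i, rfl⟩)
  have hone : (1 : LaurentSeries K) ∈ T := by simpa using himg 1 (one_mem _)
  have hTY : ∀ y ∈ T, y ∈ Y := by
    intro y hy
    induction hy using Submodule.span_induction with
    | mem y hy => obtain ⟨i, rfl⟩ := hy; exact hmemY _ (e i).2
    | zero => exact zero_mem _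
    | add y z _ _ hy hz => exact add_mem hy hz
    | smul c y _ hy => exact Y.smul_mem hy
  have hmul : ∀ y z, y ∈ T → z ∈ T → y * z ∈ T := by
    intro y z hy hz
    induction hy using Submodule.span_induction with
    | mem y hy =>
      obtain ⟨i, rfl⟩ := hy
      induction hz using Submodule.span_induction with
      | mem z hz =>
        obtain ⟨j, rfl⟩ := hz
        rw [← map_mul]
        exact himg _ (mul_mem (e i).2 (e j).2)
      | zero => simp
      | add y z _ _ hy hz => rw [mul_add]; exact T.add_mem hy hz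
      | smul c z _ hz => rw [mul_smul_comm]; exact T.smul_mem c hz
    | zero => simp
    | add y₁ y₂ _ _ h₁ h₂ => rw [add_mul]; exact T.add_mem h₁ h₂
    | smul c y _ hy => rw [smul_mul_assoc]; exact T.smul_mem c hy
  let TA : Subalgebra K⟮φ x⟯ (LaurentSeries K) := T.toSubalgebra hone hmul
  let TI : IntermediateField K⟮φ x⟯ (LaurentSeries K) := TA.toIntermediateField fun y hy => by
    refine TA.inv_mem_of_algebraic (x := ⟨y, hy⟩) ?_
    exact (Algebra.IsAlgebraic.isAlgebraic (⟨y, hTY y hy⟩ : Y)).algHom Y.val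
  have hYT : adjoin K (φ '' S) ≤ restrictScalars K TI := by
    rw [adjoin_le_iff]
    rintro _ ⟨y, hy, rfl⟩
    exact himg y (subset_adjoin k S hy)
  have hY : Y.toSubalgebra.toSubmodule = T := le_antisymm (fun y hy => hYT hy) hTY
  show Module.finrank K⟮φ x⟯ Y.toSubalgebra.toSubmodule ≤ _
  rw [hY]
  exact (finrank_range_le_card v).trans (le_of_eq (Fintype.card_fin _))

end Fermat.Agent.SquareLevel
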