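import Fermat.Agent.Igusa.Degree
import Fermat.Agent.MF.Descent

/-!
# Generators of the fields of level `M q` and `M q²`
-/

noncomputable section

open Polynomial IntermediateField ModularCurve
open Fermat.Agent.Igusa

namespace Fermat.Agent.SquareLevel

section Closed

variable {K : Type*} [Field K] [IsAlgClosed K] [CharZero K]

/-- `j(q^(dpr))` is in any field containing `j(q^(dp))` and `j(q^(dr))`. -/
theorem jv_mem_of_two {p r : ℕ} [hp : Fact p.Prime] [hr : Fact r.Prime] (hpr : p ≠ r)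
    {d : ℕ} (hd : d ≠ 0) {F : IntermediateField K (LaurentSeries K)}
    (h1 : jv (1 : Kˣ) (d * p) ∈ F) (h2 : jv (1 : Kˣ) (d * r) ∈ F) :
    jv (1 : Kˣ) (d * p * r) ∈ F := by
  obtain ⟨P, hP⟩ := exists_isModPoly (p := r) (Nat.cast_ne_zero.mpr hr.out.ne_zero : (r : K) ≠ 0)
  obtain ⟨R, hR⟩ := exists_isModPoly (p := p) (Nat.cast_ne_zero.mpr hp.out.ne_zero : (p : K) ≠ 0)
  have hp0 : p ≠ 0 := hp.out.ne_zero
  have hr0 : r ≠ 0 := hr.out.ne_zero
  have hn : p * r ≠ 0 := mul_ne_zero hp0 hr0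
  set ι : F →+* LaurentSeries K :=
    (sub (1 : Kˣ) (p * r)).comp (algebraMap F (LaurentSeries K))
  have e1 : (P.map (evalIn F h1)).map ι = P.map (evalAt (jv (1 : Kˣ) (r * (p * p * d)))) := by
    rw [← Polynomial.map_map, map_evalIn_map, Polynomial.map_map, sub_evalAt 1 hn,
      sub_jv 1 1 hn (mul_ne_zero hd hp0), one_pow, one_mul,
      show p * r * (d * p) = r * (p * p * d) by ring]
  have e2 : (R.map (evalIn F h2)).map ι = R.map (evalAt (jv (1 : Kˣ) (p * (r * r * d)))) := by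
    rw [← Polynomial.map_map, map_evalIn_map, Polynomial.map_map, sub_evalAt 1 hn,
      sub_jv 1 1 hn (mul_ne_zero hd hr0), one_pow, one_mul,
      show p * r * (d * r) = p * (r * r * d) by ring]
  have he : p * p * d ≠ 0 := mul_ne_zero (mul_ne_zero hp0 hp0) hd
  have he' : r * r * d ≠ 0 := mul_ne_zero (mul_ne_zero hr0 hr0) hd
  have hpp : 2 * 2 ≤ p * p := Nat.mul_le_mul hp.out.two_le hp.out.two_le
  have hrr : 2 * 2 ≤ r * r := Nat.mul_le_mul hr.out.two_le hr.out.two_le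
  have hd' := Nat.pos_of_ne_zero hd
  have hx : sub (1 : Kˣ) (p * r) (jv (1 : Kˣ) (d * p * r)) ∈ ι.range := by
    rw [sub_jv 1 1 hn (mul_ne_zero (mul_ne_zero hd hp0) hr0), one_pow, one_mul,
      show p * r * (d * p * r) = r * r * (p * p * d) by ring]
    refine mem_range_of_common_root ι (f := P.map (evalIn F h1)) (g := R.map (evalIn F h2))
      (by rw [e1]; exact hP.splits 1 _ he) (by rw [e1]; exact hP.separable 1 _ he)
      (by rw [e1, hP.isRoot_iff 1 _ he]; exact Or.inl (by rw [one_pow]))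
      (by
        rw [e2, hR.isRoot_iff 1 _ he']
        exact Or.inl (by rw [one_pow, show p * p * (r * r * d) = r * r * (p * p * d) by ring])) ?_
    intro y hy hy'
    rw [e1, hP.isRoot_iff 1 _ he] at hy
    rw [e2, hR.isRoot_iff 1 _ he'] at hy'
    rcases hy with rfl | ⟨η, -, rfl⟩
    · rw [one_pow]
    · exfalso
      rcases hy' with h | ⟨η', -, h⟩
      · have := ((jv_inj he (mul_ne_zero (mul_ne_zero hp0 hp0) he')).mp h).2
        have h' := Nat.eq_of_mul_eq_mul_left (n := p * p) (by omega) this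
        nlinarith
      · have := ((jv_inj he he').mp h).2
        exact hpr (Nat.mul_self_inj.mp (Nat.eq_of_mul_eq_mul_right hd' this))
  obtain ⟨z, hz⟩ := hx
  rw [← sub_injective (1 : Kˣ) hn hz]
  exact z.2

variable {M q : ℕ} [hq : Fact q.Prime] {F : IntermediateField K (LaurentSeries K)}

omit [IsAlgClosed K] [CharZero K] in
theorem jv_mul_mem_of_top (hM : M ≠ 0) (hqM : ¬ q ∣ M) {e : ℕ}
    (hstep : ∀ d r, r.Prime → r ≠ q → d * r ∣ M → jv (1 : Kˣ) (d * e) ∈ F →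
      jv (1 : Kˣ) (d * r * e) ∈ F)
    (h0 : jv (1 : Kˣ) e ∈ F) : ∀ d, d ∣ M → jv (1 : Kˣ) (d * e) ∈ F := by
  intro d
  induction d using induction_on_primes with
  | zero => intro h; exact absurd (Nat.eq_zero_of_zero_dvd h) hM
  | one => intro _; rwa [one_mul]
  | prime_mul r a hr ih =>
    intro h
    have hrq : r ≠ q := by rintro rfl; exact hqM ((dvd_mul_right r a).trans h)
    rw [mul_comm r a] at h ⊢
    exact hstep a r hr hrq h (ih ((dvd_mul_right a r).trans h))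

/-- Level `M q` from `j` and `j(q^(dq))`. -/
theorem jv_mem_of_mul (hM : M ≠ 0) (hqM : ¬ q ∣ M)
    (hmul : ∀ d, d ∣ M → jv (1 : Kˣ) (d * q) ∈ F) (h1 : jv (1 : Kˣ) 1 ∈ F) :
    ∀ d, d ∣ M → jv (1 : Kˣ) d ∈ F := by
  intro d hd
  have := jv_mul_mem_of_top (F := F) hM hqM (e := 1) (fun a r hr hrq har ha => ?_)
    h1 d hd
  · rwa [mul_one] at this
  · have : Fact r.Prime := ⟨hr⟩
    rw [mul_one] at ha ⊢
    refine jv_mem_of_mem (p := r) (r := q) hrq (Nat.cast_ne_zero.mpr hr.ne_zero)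
      (Nat.cast_ne_zero.mpr hq.out.ne_zero) (fun h => ?_) ha (hmul _ har)
    rw [h, zero_mul] at har
    exact hM (Nat.eq_zero_of_zero_dvd har)

/-- The upper degeneracy level from the middle one. -/
theorem jv_mem_of_mul_sq (hM : M ≠ 0) (hqM : ¬ q ∣ M)
    (hmul : ∀ d, d ∣ M → jv (1 : Kˣ) (d * q) ∈ F) (h2 : jv (1 : Kˣ) (q * q) ∈ F) :
    ∀ d, d ∣ M → jv (1 : Kˣ) (d * (q * q)) ∈ F := by
  refine jv_mul_mem_of_top hM hqM (fun a r hr hrq har ha => ?_) h2
  have : Fact r.Prime := ⟨hr⟩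
  have ha0 : a ≠ 0 := fun h => hM (Nat.eq_zero_of_zero_dvd (by rw [h, zero_mul] at har; exact har))
  rw [show a * r * (q * q) = a * q * r * q by ring]
  refine jv_mem_of_two (p := r) (r := q) hrq (mul_ne_zero ha0 hq.out.ne_zero) ?_ ?_
  · rw [show a * q * r = a * r * q by ring]; exact hmul _ har
  · rwa [show a * q * q = a * (q * q) by ring]

/-- Level `M q` from level `M` and `j(q^q)`. -/
theorem jv_mul_mem_of_low (hM : M ≠ 0) (hqM : ¬ q ∣ M)
    (hlow : ∀ d, d ∣ M → jv (1 : Kˣ) d ∈ F) (hj : jv (1 : Kˣ) q ∈ F) :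
    ∀ d, d ∣ M → jv (1 : Kˣ) (d * q) ∈ F := by
  refine jv_mul_mem_of_top hM hqM (fun a r hr hrq har ha => ?_) hj
  have : Fact r.Prime := ⟨hr⟩
  have ha0 : a ≠ 0 := fun h => hM (Nat.eq_zero_of_zero_dvd (by rw [h, zero_mul] at har; exact har))
  exact jv_mem_of_two (p := r) (r := q) hrq ha0 (hlow _ har) ha

theorem dvd_mul_prime_cases {d : ℕ} (hd : d ∣ M * q) :
    d ∣ M ∨ ∃ d', d' ∣ M ∧ d = d' * q := by
  by_cases hqd : q ∣ d
  · obtain ⟨c, rfl⟩ := hqd
    refine Or.inr ⟨c, ?_, mul_comm _ _⟩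
    rw [mul_comm M q] at hd
    exact Nat.dvd_of_mul_dvd_mul_left hq.out.pos hd
  · exact Or.inl ((((hq.out.coprime_iff_not_dvd).mpr hqd).symm).dvd_of_dvd_mul_right hd)

theorem full_mul_sq_le (hM : M ≠ 0) (hqM : ¬ q ∣ M)
    (hmul : ∀ d, d ∣ M → jv (1 : Kˣ) (d * q) ∈ F) (h1 : jv (1 : Kˣ) 1 ∈ F)
    (h2 : jv (1 : Kˣ) (q * q) ∈ F) : modularFunctionFieldFullC K (M * q * q) ≤ F := by
  refine full_le_iff.mpr fun d _ hd => ?_
  by_cases hqd : q ∣ d
  · obtain ⟨c, rfl⟩ := hqd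
    have hc : c ∣ M * q := by
      rw [show M * q * q = q * (M * q) by ring] at hd
      exact Nat.dvd_of_mul_dvd_mul_left hq.out.pos hd
    rcases dvd_mul_prime_cases hc with h | ⟨e, he, rfl⟩
    · rw [mul_comm]; exact hmul c h
    · rw [show q * (e * q) = e * (q * q) by ring]; exact jv_mem_of_mul_sq hM hqM hmul h2 e he
  · refine jv_mem_of_mul hM hqM hmul h1 d ?_
    have hco : d.Coprime q := ((hq.out.coprime_iff_not_dvd).mpr hqd).symm
    exact hco.dvd_of_dvd_mul_right (hco.dvd_of_dvd_mul_right hd)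

theorem full_mul_le_of_top (hM : M ≠ 0) (hqM : ¬ q ∣ M)
    (hmul : ∀ d, d ∣ M → jv (1 : Kˣ) (d * q) ∈ F) (h1 : jv (1 : Kˣ) 1 ∈ F) :
    modularFunctionFieldFullC K (M * q) ≤ F := by
  refine full_le_iff.mpr fun d _ hd => ?_
  rcases dvd_mul_prime_cases hd with h | ⟨e, he, rfl⟩
  · exact jv_mem_of_mul hM hqM hmul h1 d h
  · exact hmul e he

theorem full_mul_le_of_low (hM : M ≠ 0) (hqM : ¬ q ∣ M)
    (hlow : ∀ d, d ∣ M → jv (1 : Kˣ) d ∈ F) (hj : jv (1 : Kˣ) q ∈ F) :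
    modularFunctionFieldFullC K (M * q) ≤ F := by
  refine full_le_iff.mpr fun d _ hd => ?_
  rcases dvd_mul_prime_cases hd with h | ⟨e, he, rfl⟩
  · exact hlow d h
  · exact jv_mul_mem_of_low hM hqM hlow hj e he

end Closed

section Any

variable {L : Type*} [Field L] [CharZero L] {F : IntermediateField L (LaurentSeries L)}

local notation "E" => AlgebraicClosure L

/-- The image of a field of series over the algebraic closure of the constants. -/
def closureField (F : IntermediateField L (LaurentSeries L)) :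
    IntermediateField E (LaurentSeries E) :=
  adjoin E (coeffMap (algebraMap L E) '' (F : Set (LaurentSeries L)))

omit [CharZero L] in
theorem jv_mem_closureField {d : ℕ} (hd : d ≠ 0) (h : jv (1 : Lˣ) d ∈ F) :
    jv (1 : Eˣ) d ∈ closureField F :=
  subset_adjoin E _ ⟨_, h, by rw [coeffMap_jv _ _ hd, map_one]⟩

omit [CharZero L] in
theorem full_le_of_closure {N : ℕ}
    (h : modularFunctionFieldFullC E N ≤ closureField F) :
    modularFunctionFieldFullC L N ≤ F := by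
  refine full_le_iff.mpr fun d hd0 hd => ?_
  refine adjoin_le_iff.mpr (le_refl (F : Set (LaurentSeries L))) ?_
  refine MF.mem_adjoin_of_coeffMap_mem (k := L) (K := E) ?_
  rw [coeffMap_jv _ _ hd0, map_one]
  exact h (jv_mem_full hd0 hd)

variable {M q : ℕ} [hq : Fact q.Prime] (hM : M ≠ 0) (hqM : ¬ q ∣ M)
include hM hqM

theorem full_mul_sq_le_any (hmul : ∀ d, d ∣ M → jv (1 : Lˣ) (d * q) ∈ F)
    (h1 : jv (1 : Lˣ) 1 ∈ F) (h2 : jv (1 : Lˣ) (q * q) ∈ F) :
    modularFunctionFieldFullC L (M * q * q) ≤ F :=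
  full_le_of_closure (full_mul_sq_le hM hqM
    (fun d hd => jv_mem_closureField (mul_ne_zero
      (fun h => hM (Nat.eq_zero_of_zero_dvd (h ▸ hd))) hq.out.ne_zero) (hmul d hd))
    (jv_mem_closureField one_ne_zero h1)
    (jv_mem_closureField (mul_ne_zero hq.out.ne_zero hq.out.ne_zero) h2))

theorem full_mul_le_of_top_any (hmul : ∀ d, d ∣ M → jv (1 : Lˣ) (d * q) ∈ F)
    (h1 : jv (1 : Lˣ) 1 ∈ F) : modularFunctionFieldFullC L (M * q) ≤ F :=
  full_le_of_closure (full_mul_le_of_top hM hqM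
    (fun d hd => jv_mem_closureField (mul_ne_zero
      (fun h => hM (Nat.eq_zero_of_zero_dvd (h ▸ hd))) hq.out.ne_zero) (hmul d hd))
    (jv_mem_closureField one_ne_zero h1))

theorem full_mul_le_of_low_any (hlow : ∀ d, d ∣ M → jv (1 : Lˣ) d ∈ F)
    (hj : jv (1 : Lˣ) q ∈ F) : modularFunctionFieldFullC L (M * q) ≤ F :=
  full_le_of_closure (full_mul_le_of_low hM hqM
    (fun d hd => jv_mem_closureField
      (fun h => hM (Nat.eq_zero_of_zero_dvd (h ▸ hd))) (hlow d hd))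
    (jv_mem_closureField hq.out.ne_zero hj))

end Any

end Fermat.Agent.SquareLevel
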