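import Fermat.Agent.Hecke.Inputs
import Fermat.Agent.Igusa.SmoothWitness
import Fermat.Agent.SquareLevel.Hauptmodul.Series
import Fermat.Agent.SquareLevel.Setting
import Fermat.Agent.SquareLevel.Tower.Descent
import Fermat.Agent.SquareLevel.Tower.Generation

/-!
# The fields of the tower and their degrees

`F` is the field of level `M` in the middle variable `T`, `K` that of level `M q²`; `F → K` is
`q ↦ q^q`, `a = t(q²τ)`, `b = t(τ)`.
-/

noncomputable section

open Polynomial IntermediateField ModularCurve AlgebraicCurve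
open Fermat.Agent.Igusa (jv evalAt)

namespace Fermat.Agent.SquareLevel

variable {q n0 : ℕ} [hq : Fact q.Prime] [NeZero q] [NeZero n0] (D : HauptData q n0)
variable (L : Type) [Field L] [Algebra ℚ L]

/-- `t` over `L`. -/
def HauptData.tSer : LaurentSeries L := coeffMap (Int.castRingHom L) D.t

theorem charZero_of_algebraRat : CharZero L :=
  charZero_of_injective_ringHom (algebraMap ℚ L).injective

theorem qExpand_jv {R : Type*} [CommRing R] (n : ℕ) [NeZero n] {m : ℕ} (hm : m ≠ 0) :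
    qExpand R n (jv (1 : Rˣ) m) = jv (1 : Rˣ) (n * m) := by
  rw [← Igusa.sub_one_eq n, Igusa.sub_jv 1 1 (NeZero.ne n) hm, one_pow, one_mul]

namespace HauptData

omit hq in
theorem unitPole_t : UnitPole D.t := by
  refine ⟨D.t.powerSeriesPart, ?_, ?_⟩
  · rw [← PowerSeries.coeff_zero_eq_constantCoeff, LaurentSeries.powerSeriesPart_coeff,
      D.t_order]
    simpa using D.t_coeff
  · have h := LaurentSeries.single_order_mul_powerSeriesPart D.t
    rw [D.t_order] at h
    exact h.symm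

omit [Algebra ℚ L] hq in
theorem unitPole_tSer : UnitPole (D.tSer L) := D.unitPole_t.map _

omit hq [Algebra ℚ L] in
theorem aeval_tSer (P : L[X]) : aeval (D.tSer L) P = evalAt (D.tSer L) P := by
  have h : (aeval (D.tSer L) : L[X] →ₐ[L] LaurentSeries L).toRingHom = evalAt (D.tSer L) :=
    Polynomial.ringHom_ext (fun c => by simp [evalAt, algebraMap_laurentSeries_eq_single])
      (by simp [evalAt])
  exact RingHom.congr_fun h P

omit [Algebra ℚ L] hq in
theorem transcendental_tSer : Transcendental L (D.tSer L) := by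
  rw [transcendental_iff_injective]
  intro x y hxy
  refine (D.unitPole_tSer L).evalAt_injective ?_
  rw [← D.aeval_tSer, ← D.aeval_tSer]
  exact hxy

omit hq in
theorem coeffMap_aeval_t {R : Type*} [CommRing R] (P : ℤ[X]) :
    coeffMap (Int.castRingHom R) (aeval D.t P) =
      P.eval₂ (Int.castRingHom _) (coeffMap (Int.castRingHom R) D.t) := by
  rw [aeval_def, hom_eval₂]
  congr 1
  exact RingHom.ext_int _ _

omit hq in
/-- `j G(t) = P(t)`. -/
theorem jrel_eval₂ {R : Type*} [CommRing R] :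
    jqModC R * D.G.eval₂ (Int.castRingHom _) (coeffMap (Int.castRingHom R) D.t) =
      D.P.eval₂ (Int.castRingHom _) (coeffMap (Int.castRingHom R) D.t) := by
  rw [← D.coeffMap_aeval_t, ← D.coeffMap_aeval_t, ← D.jrel, map_mul, coeffMap_jqModC]

omit hq [Algebra ℚ L] in
theorem eval₂_int_eq (P : ℤ[X]) :
    P.eval₂ (Int.castRingHom _) (D.tSer L) = aeval (D.tSer L) (P.map (Int.castRingHom L)) := by
  rw [aeval_def, eval₂_map]
  congr 1
  exact RingHom.ext_int _ _

omit hq in
theorem G_tSer_ne_zero : D.G.eval₂ (Int.castRingHom _) (D.tSer L) ≠ 0 := by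
  have := charZero_of_algebraRat L
  rw [D.eval₂_int_eq L]
  exact fun h => (D.G_monic.map _).ne_zero ((transcendental_iff.mp (D.transcendental_tSer L)) _ h)

omit hq in
theorem jq_mem_adjoin_tSer : jqModC L ∈ L⟮D.tSer L⟯ := by
  have h := D.jrel_eval₂ (R := L)
  rw [show coeffMap (Int.castRingHom L) D.t = D.tSer L from rfl] at h
  rw [eq_div_of_mul_eq (D.G_tSer_ne_zero L) h]
  refine div_mem ?_ ?_ <;>
  · rw [D.eval₂_int_eq L]
    exact algebra_adjoin_le_adjoin L _ (aeval_mem_adjoin_singleton L _)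

omit hq in
theorem coeffEmb_tQ : coeffEmb L (coeffMap (Int.castRingHom ℚ) D.t) = D.tSer L := by
  rw [coeffEmb, coeffMap_coeffMap, HauptData.tSer,
    RingHom.ext_int ((algebraMap ℚ L).comp (Int.castRingHom ℚ)) (Int.castRingHom L)]

omit hq in
theorem adjoin_tSer : L⟮D.tSer L⟯ = laurentBaseChange L (modularFunctionFieldFull n0) := by
  rw [← D.gen]
  refine le_antisymm ?_ ?_
  · rw [adjoin_simple_le_iff, ← D.coeffEmb_tQ]
    exact coeffEmb_mem_laurentBaseChange L (mem_adjoin_simple_self ℚ _)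
  · rw [laurentBaseChange, adjoin_le_iff]
    rintro _ ⟨y, hy, rfl⟩
    have h := MF.coeffMap_mem_adjoin (K := L) hy
    rw [Set.image_singleton] at h
    rw [← D.coeffEmb_tQ]
    exact h

variable (M : ℕ) [NeZero M]

omit hq in
theorem tSer_mem (hn : n0 ∣ M) : D.tSer L ∈ Hecke.X0Field L M := by
  have h : D.tSer L ∈ L⟮D.tSer L⟯ := mem_adjoin_simple_self L _
  rw [D.adjoin_tSer] at h
  exact IntermediateField.adjoin.mono L _ _ (Set.image_mono (full_degeneracy_le hn)) h

end HauptData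

variable (M : ℕ) [NeZero M]

omit [NeZero M] in
theorem mem_X0Field_iff {x : LaurentSeries L} :
    x ∈ Hecke.X0Field L M ↔ x ∈ modularFunctionFieldFullC L M := by
  rw [Hecke.X0Field, MF.laurentBaseChange_full_eq]

omit [NeZero M] in
theorem jv_mem_X0Field {d : ℕ} (hd0 : d ≠ 0) (hd : d ∣ M) :
    jv (1 : Lˣ) d ∈ Hecke.X0Field L M :=
  (mem_X0Field_iff L M).mpr (Igusa.jv_mem_full hd0 hd)

omit [NeZero M] in
theorem X0Field_le_iff {F : IntermediateField L (LaurentSeries L)} :
    Hecke.X0Field L M ≤ F ↔ modularFunctionFieldFullC L M ≤ F := by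
  rw [Hecke.X0Field, MF.laurentBaseChange_full_eq]

/-- `[L(X₀(M)) : L(j(q^e))] = ψ(M)` for `e ∣ M`. -/
theorem relfinrank_jv {e : ℕ} (he0 : e ≠ 0) (he : e ∣ M) :
    relfinrank L⟮jv (1 : Lˣ) e⟯ (Hecke.X0Field L M) = Igusa.psi M := by
  have := charZero_of_algebraRat L
  have : NeZero e := ⟨he0⟩
  let E := AlgebraicClosure L
  have : CharZero E := charZero_of_injective_ringHom (algebraMap L E).injective
  have hM : (M : E) ≠ 0 := Nat.cast_ne_zero.mpr (NeZero.ne M)
  have himg : coeffMap (algebraMap L E) '' divisorExpansionsC L M = divisorExpansionsC E M :=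
    MF.coeffMap_image_divisorExpansions _ M
  have htarget : relfinrank E⟮jv (1 : Eˣ) e⟯ (modularFunctionFieldFullC E M) = Igusa.psi M := by
    rw [Igusa.relfinrank_adjoin_jv_eq hM le_rfl e he, Igusa.relfinrank_full M hM]
  have hje : coeffMap (algebraMap L E) (jv (1 : Lˣ) e) = jv (1 : Eˣ) e := by
    rw [Igusa.coeffMap_jv _ _ he0, map_one]
  have htr : Transcendental L (jv (1 : Lˣ) e) := by
    rw [transcendental_iff_injective]
    have h : (aeval (jv (1 : Lˣ) e) : L[X] →ₐ[L] LaurentSeries L).toRingHom =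
        evalAt (jv (1 : Lˣ) e) :=
      Polynomial.ringHom_ext (fun c => by simp [evalAt, algebraMap_laurentSeries_eq_single])
        (by simp [evalAt])
    intro x y hxy
    refine Igusa.evalAt_jv_injective he0 ?_
    rw [← h]
    exact hxy
  rw [show Hecke.X0Field L M = modularFunctionFieldFullC L M from MF.laurentBaseChange_full_eq L M,
    modularFunctionFieldFullC, relfinrank_baseChange (K := E) (Igusa.jv_mem_full he0 he) htr ?_,
    hje, himg]
  · exact htarget
  · rw [hje, himg]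
    exact htarget ▸ (Igusa.psi_pos M).ne'

omit hq in
/-- `[L(X₀(M)) : L(t)] ψ(n₀) = ψ(M)`. -/
theorem relfinrank_tSer (hn : n0 ∣ M) :
    Igusa.psi n0 * relfinrank L⟮D.tSer L⟯ (Hecke.X0Field L M) = Igusa.psi M := by
  have hj : jqModC L = jv (1 : Lˣ) 1 := by rw [Igusa.jv_one_eq_qExpand, qExpand_one_apply]
  have h1 : L⟮jv (1 : Lˣ) 1⟯ ≤ L⟮D.tSer L⟯ := by
    rw [adjoin_simple_le_iff, ← hj]; exact D.jq_mem_adjoin_tSer L
  have h2 : L⟮D.tSer L⟯ ≤ Hecke.X0Field L M := adjoin_simple_le_iff.mpr (D.tSer_mem L M hn)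
  rw [← relfinrank_jv L n0 one_ne_zero (one_dvd _), ← relfinrank_jv L M one_ne_zero (one_dvd _),
    show Hecke.X0Field L n0 = L⟮D.tSer L⟯ from (D.adjoin_tSer L).symm,
    relfinrank_mul_relfinrank h1 h2]

/-- `t` in the field of level `M`. -/
def HauptData.tMid (hn : n0 ∣ M) : Hecke.X0Field L M := ⟨D.tSer L, D.tSer_mem L M hn⟩

variable (q)

/-- `F → K`, `q ↦ q^q`. -/
def midHom : Hecke.X0Field L M →ₐ[L] Hecke.X0Field L (M * q * q) :=
  (heckeAlphaBar L (M * q) q).comp (heckeBetaBar L M q)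

omit hq in
theorem coe_midHom (x : Hecke.X0Field L M) :
    (midHom q L M x : LaurentSeries L) = qExpand L q (x : LaurentSeries L) := by
  simp [midHom]

variable {q}

/-- `b = t(τ)` in the field of level `M q²`. -/
def HauptData.bTop (hn : n0 ∣ M) : Hecke.X0Field L (M * q * q) :=
  ⟨D.tSer L, D.tSer_mem L _ (hn.mul_right q |>.mul_right q)⟩

/-- `a = t(q²τ)` in the field of level `M q²`. -/
def HauptData.aTop (hn : n0 ∣ M) : Hecke.X0Field L (M * q * q) :=
  heckeBetaBar L (M * q) q (heckeBetaBar L M q (D.tMid L M hn))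

omit hq in
theorem HauptData.coe_aTop (hn : n0 ∣ M) :
    (D.aTop L M hn : LaurentSeries L) = qExpand L q (qExpand L q (D.tSer L)) := by
  simp [HauptData.aTop, HauptData.tMid]

/-- The degree of `K` over `F`. -/
theorem finrankAlong_midHom (hqM : ¬ q ∣ M) :
    finrankAlong L (midHom q L M) = q * (q + 1) := by
  have := charZero_of_algebraRat L
  have hq0 := hq.out.ne_zero
  have hN : M * q * q ≠ 0 := mul_ne_zero (mul_ne_zero (NeZero.ne M) hq0) hq0
  have : NeZero (M * q * q) := ⟨hN⟩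
  have h := Hecke.finrank_adjoin_apply (midHom q L M) (Hecke.jElt L M)
  rw [Hecke.finrank_over_j] at h
  have himg : ((midHom q L M (Hecke.jElt L M) : Hecke.X0Field L (M * q * q)) : LaurentSeries L) =
      jv (1 : Lˣ) q := by
    rw [coe_midHom, Igusa.jv_one_eq_qExpand]
    rfl
  have hrel : Module.finrank L⟮midHom q L M (Hecke.jElt L M)⟯ (Hecke.X0Field L (M * q * q)) =
      Igusa.psi (M * q * q) := by
    have e : L⟮midHom q L M (Hecke.jElt L M)⟯ =
        L⟮jv (1 : Lˣ) q⟯.comap (Hecke.X0Field L (M * q * q)).val := by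
      refine SetLike.ext fun y => ?_
      rw [← IntermediateField.mem_lift, IntermediateField.lift_adjoin_simple, himg]
      rfl
    rw [e, IntermediateField.finrank_comap, IntermediateField.fieldRange_val,
      relfinrank_jv L _ hq0 (dvd_mul_left q (M * q))]
  rw [hrel, show (CongruenceSubgroup.Gamma0 M).index = Igusa.psi M from
    Igusa.natCard_coset_eq_psi M, Igusa.psi_mul_prime (mul_ne_zero (NeZero.ne M) hq0) hq.out,
    if_pos (dvd_mul_left q M), Igusa.psi_mul_prime (NeZero.ne M) hq.out, if_neg hqM,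
    mul_assoc] at h
  rw [← Nat.eq_of_mul_eq_mul_left (Igusa.psi_pos M) h, mul_comm]

/-- `a` and `b` generate `K` over `F`. -/
theorem top_le_of_mem (hn : n0 ∣ M) (hqM : ¬ q ∣ M)
    (F : IntermediateField L (Hecke.X0Field L (M * q * q)))
    (hF : ∀ x, midHom q L M x ∈ F) (ha : D.aTop L M hn ∈ F) (hb : D.bTop L M hn ∈ F) :
    ⊤ ≤ F := by
  have := charZero_of_algebraRat L
  have hq0 := hq.out.ne_zero
  set F' := F.map (Hecke.X0Field L (M * q * q)).val
  have hmem : ∀ x, x ∈ F → (x : LaurentSeries L) ∈ F' := fun x hx => ⟨x, hx, rfl⟩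
  have hjq : jqModC L = jv (1 : Lˣ) 1 := by rw [Igusa.jv_one_eq_qExpand, qExpand_one_apply]
  have hb' : L⟮D.tSer L⟯ ≤ F' := adjoin_simple_le_iff.mpr (hmem _ hb)
  have h1 : jv (1 : Lˣ) 1 ∈ F' := hjq ▸ hb' (D.jq_mem_adjoin_tSer L)
  have ha' : jv (1 : Lˣ) (q * q) ∈ F' := by
    have hmap : L⟮qExpand L q (qExpand L q (D.tSer L))⟯ ≤ F' :=
      adjoin_simple_le_iff.mpr (D.coe_aTop L M hn ▸ hmem _ ha)
    refine hmap ?_
    let ψ : LaurentSeries L →ₐ[L] LaurentSeries L :=
      (qExpandAlgHomC L q).comp (qExpandAlgHomC L q)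
    have h : ψ (jv (1 : Lˣ) 1) ∈ L⟮D.tSer L⟯.map ψ :=
      ⟨_, hjq ▸ D.jq_mem_adjoin_tSer L, rfl⟩
    rw [IntermediateField.adjoin_map, Set.image_singleton] at h
    have e : ψ (jv (1 : Lˣ) 1) = jv (1 : Lˣ) (q * q) := by
      show qExpand L q (qExpand L q (jv (1 : Lˣ) 1)) = _
      rw [qExpand_jv q one_ne_zero, qExpand_jv q (by simpa using hq0),
        mul_one]
    rw [e] at h
    exact h
  have hmul : ∀ d, d ∣ M → jv (1 : Lˣ) (d * q) ∈ F' := fun d hd => by
    have hd0 : d ≠ 0 := fun h => NeZero.ne M (Nat.eq_zero_of_zero_dvd (h ▸ hd))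
    have : NeZero d := ⟨hd0⟩
    have h := hmem _ (hF ⟨_, jv_mem_X0Field L M hd0 hd⟩)
    rw [coe_midHom] at h
    rw [mul_comm, ← qExpand_jv q hd0]
    exact h
  intro x _
  obtain ⟨y, hy, hyx⟩ :=
    (X0Field_le_iff L (M * q * q)).mpr (full_mul_sq_le_any (NeZero.ne M) hqM hmul h1 ha') x.2
  exact (Subtype.ext hyx : y = x) ▸ hy

end Fermat.Agent.SquareLevel
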