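import Fermat.Agent.SquareLevel.Tower.Field

/-!
# The structure maps of the tower over `W[T]`
-/

noncomputable section

open Polynomial IntermediateField ModularCurve AlgebraicCurve
open Fermat.Agent.Igusa (jv evalAt)

namespace Fermat.Agent.SquareLevel

variable {q n0 : ℕ} [hq : Fact q.Prime] [NeZero q] [NeZero n0] (D : HauptData q n0)
variable (W : Type) [CommRing W] [IsDomain W] (L : Type) [Field L] [Algebra W L]
    [IsFractionRing W L]
  [Algebra ℚ L] (M : ℕ) [NeZero M] (hn : n0 ∣ M)

namespace HauptData

/-- `W[T] → F`. -/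
def midEval : W[X] →+* Hecke.X0Field L M :=
  eval₂RingHom ((algebraMap L (Hecke.X0Field L M)).comp (algebraMap W L)) (D.tMid L M hn)

/-- `W[T] → K`. -/
def topEval : W[X] →+* Hecke.X0Field L (M * q * q) :=
  (midHom q L M).toRingHom.comp (D.midEval W L M hn)

omit [IsDomain W] [IsFractionRing W L] hq in
theorem coe_midEval (P : W[X]) :
    (D.midEval W L M hn P : LaurentSeries L) = aeval (D.tSer L) (P.map (algebraMap W L)) := by
  rw [aeval_def, eval₂_map]
  exact hom_eval₂ P _ (Hecke.X0Field L M).val.toRingHom (D.tMid L M hn)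

omit [IsDomain W] [IsFractionRing W L] hq in
theorem midEval_X : D.midEval W L M hn X = D.tMid L M hn := by simp [midEval]

omit [IsDomain W] [IsFractionRing W L] hq in
theorem midEval_C (w : W) :
    D.midEval W L M hn (C w) = algebraMap L (Hecke.X0Field L M) (algebraMap W L w) := by
  simp [midEval]

omit [IsDomain W] hq in
theorem midEval_injective : Function.Injective (D.midEval W L M hn) := by
  intro P Q h
  have h' := congrArg Subtype.val h
  rw [D.coe_midEval, D.coe_midEval] at h'
  exact Polynomial.map_injective _ (IsFractionRing.injective W L)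
    ((transcendental_iff_injective.mp (D.transcendental_tSer L)) h')

/-- `F` as a `W[T]`-algebra. -/
abbrev midAlgebra : Algebra W[X] (Hecke.X0Field L M) := (D.midEval W L M hn).toAlgebra

/-- `K` as a `W[T]`-algebra. -/
abbrev topAlgebra : Algebra W[X] (Hecke.X0Field L (M * q * q)) :=
  (D.topEval W L M hn).toAlgebra

section Gauss

variable [IsLocalRing W]

omit [IsDomain W] hq in
theorem isUnit_midEval (s : (gaussPrime W).primeCompl) : IsUnit (D.midEval W L M hn s) := by
  refine isUnit_iff_ne_zero.mpr fun h => s.2 ?_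
  rw [(map_eq_zero_iff _ (D.midEval_injective W L M hn)).mp h]
  exact zero_mem _

/-- `F` as an algebra over the local ring at the Gauss prime. -/
abbrev gaussAlgebra : Algebra (GaussLoc W) (Hecke.X0Field L M) :=
  (IsLocalization.lift (M := (gaussPrime W).primeCompl) (D.isUnit_midEval W L M hn)).toAlgebra

end Gauss

/-- `F` as an algebra over `Frac W[T]`. -/
abbrev fracAlgebra : Algebra (FractionRing W[X]) (Hecke.X0Field L M) :=
  (IsFractionRing.lift (D.midEval_injective W L M hn)).toAlgebra

omit hq in
/-- `[F : L(T)]`. -/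
theorem finrank_mid :
    letI := D.fracAlgebra W L M hn
    Igusa.psi n0 * Module.finrank (FractionRing W[X]) (Hecke.X0Field L M) = Igusa.psi M := by
  let := D.fracAlgebra W L M hn
  set κ := algebraMap (FractionRing W[X]) (Hecke.X0Field L M)
  set v := (Hecke.X0Field L M).val.toRingHom
  have hle : L⟮D.tSer L⟯ ≤ Hecke.X0Field L M := adjoin_simple_le_iff.mpr (D.tSer_mem L M hn)
  have hκ : ∀ P : W[X], v (κ (algebraMap W[X] _ P)) = aeval (D.tSer L) (P.map (algebraMap W L)) :=
    fun P => by
      rw [show κ (algebraMap W[X] _ P) = D.midEval W L M hn P from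
        IsFractionRing.lift_algebraMap _ P]
      exact D.coe_midEval W L M hn P
  have hrange : ∀ x, v (κ x) ∈ L⟮D.tSer L⟯ := fun x => by
    obtain ⟨P, Q, -, rfl⟩ := IsFractionRing.div_surjective W[X] x
    rw [map_div₀, map_div₀, hκ, hκ]
    exact div_mem (algebra_adjoin_le_adjoin L _ (aeval_mem_adjoin_singleton L _))
      (algebra_adjoin_le_adjoin L _ (aeval_mem_adjoin_singleton L _))
  let i0 : FractionRing W[X] →+* L⟮D.tSer L⟯ :=
    (v.comp κ).codRestrict L⟮D.tSer L⟯.toSubfield hrange
  have hsurj : Function.Surjective i0 := fun y => by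
    have hy : (y : LaurentSeries L) ∈ (v.comp κ).fieldRange := by
      obtain ⟨y, hy⟩ := y
      show y ∈ (v.comp κ).fieldRange
      induction hy using adjoin_induction L with
      | mem z hz =>
        rw [Set.mem_singleton_iff.mp hz]
        exact ⟨algebraMap W[X] _ X, (hκ X).trans (by simp)⟩
      | algebraMap c =>
        obtain ⟨w, u, -, rfl⟩ := IsFractionRing.div_surjective W c
        rw [map_div₀]
        refine div_mem ⟨algebraMap W[X] _ (C w), (hκ _).trans (by simp)⟩
          ⟨algebraMap W[X] _ (C u), (hκ _).trans (by simp)⟩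
      | add z w _ _ hz hw => exact add_mem hz hw
      | inv z _ hz => exact inv_mem hz
      | mul z w _ _ hz hw => exact mul_mem hz hw
    obtain ⟨x, hx⟩ := hy
    exact ⟨x, Subtype.ext hx⟩
  let i : FractionRing W[X] ≃+* L⟮D.tSer L⟯ := RingEquiv.ofBijective i0 ⟨i0.injective, hsurj⟩
  let j : Hecke.X0Field L M ≃+* extendScalars hle :=
    { toFun := fun x => ⟨x, x.2⟩
      invFun := fun x => ⟨x, x.2⟩
      left_inv := fun _ => rfl
      right_inv := fun _ => rfl
      map_mul' := fun _ _ => rfl
      map_add' := fun _ _ => rfl }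
  rw [Algebra.finrank_eq_of_equiv_equiv i j (RingHom.ext fun x => Subtype.ext rfl),
    ← relfinrank_eq_finrank_of_le hle, relfinrank_tSer D L M hn]

omit hq in
theorem finite_mid :
    letI := D.fracAlgebra W L M hn
    FiniteDimensional (FractionRing W[X]) (Hecke.X0Field L M) := by
  let := D.fracAlgebra W L M hn
  refine FiniteDimensional.of_finrank_pos (Nat.pos_of_ne_zero fun h => (Igusa.psi_pos M).ne' ?_)
  have := D.finrank_mid W L M hn
  rw [← this, h, mul_zero]

end HauptData

end Fermat.Agent.SquareLevel
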