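import Fermat.Agent.SquareLevel.Cusps.Base
import Fermat.Agent.SquareLevel.Cusps.Conj
import Fermat.Agent.SquareLevel.Cusps.Roots
import Fermat.Agent.SquareLevel.Tower.Base

/-!
# The cusps of the middle line split in the top field over `W[ζ_q]((u))`

With `q = u^(qM)` in the middle variable every root of `P(X) - j(u^(qM)) G(X)` is a series over
`W[ζ_q]`; they lie over all the cusps.
-/

noncomputable section

open Polynomial IntermediateField ModularCurve AlgebraicCurve
open Fermat.Agent.Igusa (jv evalAt)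

namespace Fermat.Agent.SquareLevel

namespace Cusps

/-- The fractions of Laurent and of power series over `R` have the same image in series over `E`. -/
theorem exists_fracHom {R E : Type} [CommRing R] [IsDomain R] [Field E] {i : R →+* E}
    (hi : Function.Injective i) :
    ∃ (e : FractionRing (LaurentSeries R) →+* LaurentSeries E)
      (e₀ : FractionRing (PowerSeries R) →+* LaurentSeries E),
      (∀ z, e (algebraMap (LaurentSeries R) _ z) = coeffMap i z) ∧
      (∀ z, e₀ (algebraMap (PowerSeries R) _ z) = coeffMap i (HahnSeries.ofPowerSeries ℤ R z)) ∧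
      ∀ z, e z ∈ e₀.fieldRange := by
  have hem : Function.Injective (coeffMap i) := MF.coeffMap_injective hi
  let e : FractionRing (LaurentSeries R) →+* LaurentSeries E :=
    IsFractionRing.lift (A := LaurentSeries R) (g := coeffMap i) hem
  let g₀ := (coeffMap i).comp (HahnSeries.ofPowerSeries ℤ R)
  have hg₀ : Function.Injective g₀ := hem.comp HahnSeries.ofPowerSeries_injective
  let e₀ : FractionRing (PowerSeries R) →+* LaurentSeries E :=
    IsFractionRing.lift (A := PowerSeries R) (g := g₀) hg₀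
  have he₀ : ∀ z, e₀ (algebraMap (PowerSeries R) _ z) = g₀ z :=
    fun z => IsFractionRing.lift_algebraMap hg₀ z
  refine ⟨e, e₀, fun z => IsFractionRing.lift_algebraMap hem z, he₀, fun z => ?_⟩
  obtain ⟨a, b, -, rfl⟩ := IsFractionRing.div_surjective (LaurentSeries R) z
  have hL : ∀ x : LaurentSeries R, coeffMap i x ∈ e₀.fieldRange := fun x => by
    obtain ⟨⟨a, ⟨_, k, rfl⟩⟩, ha⟩ := IsLocalization.surj
      (Submonoid.powers (PowerSeries.X : PowerSeries R)) x
    have h := congrArg (coeffMap i) ha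
    rw [map_mul] at h
    have hne : g₀ (PowerSeries.X ^ k) ≠ 0 :=
      (map_ne_zero_iff _ hg₀).mpr (pow_ne_zero _ PowerSeries.X_ne_zero)
    rw [eq_div_of_mul_eq (by exact hne) h]
    exact div_mem ⟨_, he₀ a⟩ ⟨_, he₀ _⟩
  rw [map_div₀]
  exact div_mem (by rw [IsFractionRing.lift_algebraMap]; exact hL a)
    (by rw [IsFractionRing.lift_algebraMap]; exact hL b)

/-- A `qM`-th root of unity comes from a unit of a ring over `W` containing a `q`-th one. -/
theorem exists_unit_eq {W : Type} [CommRing W] [IsDomain W] [IsDiscreteValuationRing W]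
    [IsAdicComplete (IsLocalRing.maximalIdeal W) W] [IsAlgClosed (IsLocalRing.ResidueField W)]
    {E : Type} [Field E] [Algebra W E] {R : Type} [CommRing R]
    {i : R →+* E} (hi : Function.Injective i) {c : W →+* R}
    (hc : ∀ w, i (c w) = algebraMap W E w) {q M : ℕ} (hq : q.Prime)
    (hmax : IsLocalRing.maximalIdeal W = Ideal.span {(q : W)})
    (hinj : Function.Injective (algebraMap W E)) {ζ : E} (hζ : IsPrimitiveRoot ζ q)
    {z : R} (hz : i z = ζ) (hM : M ≠ 0) (hqM : ¬ q ∣ M) {η : Eˣ} (hη : η ^ (q * M) = 1) :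
    ∃ r : Rˣ, Units.map (i : R →* E) r = η := by
  have : NeZero q := ⟨hq.ne_zero⟩
  have hη' : (η : E) ^ (q * M) = 1 := by rw [← Units.val_pow_eq_pow_val, hη, Units.val_one]
  obtain ⟨w, hw⟩ := exists_eq_of_pow_eq_one hq hmax hinj hM hqM (x := (η : E) ^ q)
    (by rw [← pow_mul, hη'])
  obtain ⟨l, -, hl⟩ := hζ.eq_pow_of_pow_eq_one (ξ := (η : E) ^ M)
    (by rw [← pow_mul, mul_comm, hη'])
  obtain ⟨a, t, hat⟩ : ∃ a t : ℕ, q * a + M * (t * (q - 1)) = 1 + q * M * t := by
    rcases Nat.lt_or_ge 1 M with h1 | h1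
    · obtain ⟨a, -, ha⟩ := Nat.exists_mul_mod_eq_one_of_coprime
        (hq.coprime_iff_not_dvd.mpr hqM) h1
      refine ⟨a, q * a / M, ?_⟩
      obtain ⟨q', hq'⟩ : ∃ q', q = q' + 1 := ⟨q - 1, by have := hq.one_lt; omega⟩
      have := Nat.div_add_mod (q * a) M
      rw [ha] at this
      rw [hq', Nat.add_sub_cancel]
      rw [hq'] at this
      linarith
    · obtain rfl : M = 1 := by omega
      refine ⟨1, q - 1, ?_⟩
      obtain ⟨q', hq'⟩ : ∃ q', q = q' + 1 := ⟨q - 1, by have := hq.one_lt; omega⟩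
      rw [hq', Nat.add_sub_cancel]
      ring
  have hr : i ((c w) ^ a * (z ^ l) ^ (t * (q - 1))) = η := by
    rw [map_mul, map_pow, map_pow, map_pow, hc, hw, hz, hl, ← pow_mul, ← pow_mul, ← pow_add, hat,
      pow_add, pow_one, pow_mul (η : E) (q * M) t, hη', one_pow, mul_one]
  set r := (c w) ^ a * (z ^ l) ^ (t * (q - 1))
  have hr1 : r ^ (q * M) = 1 := hi (by rw [map_pow, hr, hη', map_one])
  exact ⟨Units.ofPowEqOne r (q * M) hr1 (mul_ne_zero hq.ne_zero hM), Units.ext hr⟩

/-- `P` and `G` have no common zero. -/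
theorem no_common_root {q n0 : ℕ} [NeZero q] [NeZero n0] (D : HauptData q n0) (hq : q.Prime)
    {E : Type} [Field E] [CharZero E] {c : E} (hP : D.P.eval₂ (Int.castRingHom E) c = 0)
    (hG : D.G.eval₂ (Int.castRingHom E) c = 0) : False := by
  have : Fact q.Prime := ⟨hq⟩
  have hint : IsIntegral ℤ c := ⟨D.P, D.P_monic, by rwa [algebraMap_int_eq]⟩
  have hd : ∀ Q : ℤ[X], Q.eval₂ (Int.castRingHom E) c = 0 → minpoly ℤ c ∣ Q := fun Q h =>
    minpoly.isIntegrallyClosed_dvd hint (by rwa [aeval_def, algebraMap_int_eq])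
  have hu := D.coprime.isUnit_of_dvd' (Polynomial.map_dvd _ (hd _ hP))
    (Polynomial.map_dvd (Int.castRingHom (ZMod q)) (hd _ hG))
  have := natDegree_eq_zero_of_isUnit hu
  rw [(minpoly.monic hint).natDegree_map] at this
  exact (minpoly.natDegree_pos hint).ne' this

/-- A root of `P - j(q^n) G` in a field of series is transcendental over the constants. -/
theorem eq_zero_of_eval₂_root {q n0 : ℕ} [NeZero q] [NeZero n0] (D : HauptData q n0) (hq : q.Prime)
    {E Ω : Type} [Field E] [CharZero E] [IsAlgClosed E] [Field Ω] (ι : LaurentSeries E →+* Ω)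
    {n : ℕ} (hn : n ≠ 0) {τ : Ω}
    (hτ : D.P.eval₂ (Int.castRingHom Ω) τ =
      ι (jv (1 : Eˣ) n) * D.G.eval₂ (Int.castRingHom Ω) τ)
    {p : E[X]} (hp : eval₂ (ι.comp HahnSeries.C) τ p = 0) : p = 0 := by
  by_contra hp0
  have hmem := (mem_roots (Polynomial.map_ne_zero (f := ι.comp HahnSeries.C) hp0)).mpr
    (by rw [IsRoot, eval_map]; exact hp)
  rw [(IsAlgClosed.splits p).roots_map] at hmem
  obtain ⟨c, -, rfl⟩ := Multiset.mem_map.mp hmem
  have hQ : ∀ Q : ℤ[X], Q.eval₂ (Int.castRingHom Ω) ((ι.comp HahnSeries.C) c) =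
      ι (HahnSeries.C (Q.eval₂ (Int.castRingHom E) c)) := fun Q => by
    rw [← RingHom.comp_apply ι HahnSeries.C, hom_eval₂]
    congr 1
    exact RingHom.ext_int _ _
  rw [hQ, hQ, ← map_mul] at hτ
  have h := congrArg (fun s : LaurentSeries E => s.coeff (-(n : ℤ))) (ι.injective hτ)
  simp only [HahnSeries.C_apply, mul_comm (jv (1 : Eˣ) n), HahnSeries.coeff_single_zero_mul,
    Igusa.jv_coeff_neg _ hn, inv_one, Units.val_one, mul_one] at h
  rw [HahnSeries.coeff_single_of_ne (by omega)] at h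
  have hP : D.P.eval₂ (Int.castRingHom E) c = 0 := by
    have h2 := ι.injective hτ
    rw [← h, map_zero, mul_zero, map_eq_zero_iff _ HahnSeries.C_injective] at h2
    exact h2
  exact no_common_root D hq hP h.symm

/-- `j(q^n)` has order `-n` and leading coefficient `1`. -/
theorem order_jv_one {R : Type} [CommRing R] [IsDomain R] {n : ℕ} (hn : n ≠ 0) :
    (jv (1 : Rˣ) n).order = -(n : ℤ) ∧ (jv (1 : Rˣ) n).leadingCoeff = 1 := by
  have h1 : (jv (1 : Rˣ) n).coeff (-(n : ℤ)) = 1 := by rw [Igusa.jv_coeff_neg _ hn]; simp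
  have h0 : jv (1 : Rˣ) n ≠ 0 := fun h => one_ne_zero (α := R) (by rw [← h1, h]; rfl)
  have hord : (jv (1 : Rˣ) n).order = -(n : ℤ) := by
    refine le_antisymm (HahnSeries.order_le_of_coeff_ne_zero (by rw [h1]; exact one_ne_zero)) ?_
    by_contra h
    push Not at h
    exact HahnSeries.leadingCoeff_eq_zero.not.mpr h0 (by
      rw [HahnSeries.leadingCoeff_eq, Igusa.jv_coeff_of_lt _ hn h])
  exact ⟨hord, by rw [HahnSeries.leadingCoeff_eq, hord, h1]⟩

/-- A monic polynomial whose roots all come from the subring splits there. -/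
theorem exists_eq_prod_X_sub_C {A Ω : Type} [CommRing A] [Field Ω] [IsAlgClosed Ω] {φ : A →+* Ω}
    (hφ : Function.Injective φ) {Q : A[X]} (hQ : Q.Monic)
    (h : ∀ τ ∈ (Q.map φ).roots, ∃ x, φ x = τ) :
    ∃ s : Multiset A, Q = (s.map fun τ => X - C τ).prod := by
  choose g hg using h
  refine ⟨(Q.map φ).roots.attach.map fun τ => g τ.1 τ.2, Polynomial.map_injective _ hφ ?_⟩
  rw [Polynomial.map_multiset_prod, Multiset.map_map, Multiset.map_map]
  conv_lhs => rw [Polynomial.Splits.eq_prod_roots_of_monic (IsAlgClosed.splits _) (hQ.map _)]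
  conv_lhs => rw [← Multiset.attach_map_val (Q.map φ).roots, Multiset.map_map]
  refine congrArg _ (Multiset.map_congr rfl fun τ _ => ?_)
  simp [hg]

/-- `G` does not vanish at a root of `P - j(q^n) G`. -/
theorem eval₂_G_ne_zero_of_root {q n0 : ℕ} [NeZero q] [NeZero n0] (D : HauptData q n0)
    (hq : q.Prime) {E Ω : Type} [Field E] [CharZero E] [IsAlgClosed E] [Field Ω]
    (ι : LaurentSeries E →+* Ω) {n : ℕ} (hn : n ≠ 0) {τ : Ω}
    (hτ : D.P.eval₂ (Int.castRingHom Ω) τ =
      ι (jv (1 : Eˣ) n) * D.G.eval₂ (Int.castRingHom Ω) τ) :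
    D.G.eval₂ (Int.castRingHom Ω) τ ≠ 0 := fun h0 => by
  refine (D.G_monic.map (Int.castRingHom E)).ne_zero (eq_zero_of_eval₂_root D hq ι hn hτ ?_)
  rw [eval₂_map]
  exact Eq.trans (congrArg (fun g => D.G.eval₂ g τ) (RingHom.ext_int _ _)) h0

/-- `P - J G` splits over an integrally closed ring of series as soon as its roots lie in the
image of the fraction field. -/
theorem exists_split_roots {q n0 : ℕ} [NeZero q] [NeZero n0] (D : HauptData q n0) {A Ω : Type}
    [CommRing A] [IsDomain A] [IsIntegrallyClosed A] [Field Ω] [IsAlgClosed Ω]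
    (ψ : FractionRing A →+* Ω) (J : A)
    (h : ∀ τ : Ω, D.P.eval₂ (Int.castRingHom Ω) τ =
      ψ (algebraMap A _ J) * D.G.eval₂ (Int.castRingHom Ω) τ → τ ∈ ψ.fieldRange) :
    ∃ s : Multiset A, D.P.map (Int.castRingHom A) - C J * D.G.map (Int.castRingHom A) =
        (s.map fun τ => X - C τ).prod ∧
      ∀ τ ∈ s, D.P.eval₂ (Int.castRingHom _) τ = J * D.G.eval₂ (Int.castRingHom _) τ := by
  set φ := ψ.comp (algebraMap A (FractionRing A))
  set Q : A[X] := D.P.map (Int.castRingHom _) - C J * D.G.map (Int.castRingHom _) with hQdef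
  have hQdeg : (C J * D.G.map (Int.castRingHom A)).degree <
      (D.P.map (Int.castRingHom A)).degree := by
    refine lt_of_le_of_lt (degree_le_natDegree.trans (WithBot.coe_le_coe.mpr
      ((natDegree_C_mul_le _ _).trans natDegree_map_le))) ?_
    rw [D.P_monic.degree_map, degree_eq_natDegree D.P_monic.ne_zero]
    exact WithBot.coe_lt_coe.mpr D.G_degree
  have hQm : Q.Monic := (D.P_monic.map _).sub_of_left hQdeg
  have hroots : ∀ τ ∈ (Q.map φ).roots, ∃ x, φ x = τ := by
    intro τ hτ
    have hτ0 := (mem_roots'.mp hτ).2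
    rw [IsRoot, eval_map] at hτ0
    obtain ⟨a, ha⟩ := h τ (by
      rw [hQdef, eval₂_sub, eval₂_mul, eval₂_C, eval₂_map, eval₂_map,
        RingHom.ext_int (φ.comp (Int.castRingHom _)) (Int.castRingHom Ω), sub_eq_zero] at hτ0
      exact hτ0)
    have hint : IsIntegral A a := ⟨Q, hQm, ψ.injective (by rw [map_zero, hom_eval₂, ha]; exact hτ0)⟩
    obtain ⟨x, rfl⟩ := IsIntegrallyClosed.isIntegral_iff.mp hint
    exact ⟨x, ha⟩
  obtain ⟨s, hs⟩ := exists_eq_prod_X_sub_C (φ := φ)
    (ψ.injective.comp (IsFractionRing.injective A _)) hQm hroots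
  refine ⟨s, hs, fun τ hτ => ?_⟩
  have h' := congrArg (Polynomial.eval τ) hs
  rw [hQdef, eval_sub, eval_mul, eval_C, eval_map, eval_map] at h'
  rw [← sub_eq_zero, h', eval_multiset_prod, Multiset.map_map]
  exact Multiset.prod_eq_zero (Multiset.mem_map.mpr ⟨τ, hτ, by simp⟩)

/-- A map on the field of level `N` takes values in a subfield once its values at the constants and
at the `j(q^d)` do. -/
theorem apply_mem_of_generators {L Ω : Type} [Field L] [Algebra ℚ L] [Field Ω] {N : ℕ}
    (σ : Hecke.X0Field L N →+* Ω) {S : Subfield Ω}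
    (hC : ∀ c, σ (algebraMap L (Hecke.X0Field L N) c) ∈ S)
    (hgen : ∀ d, d ∣ N → ∀ h : jv (1 : Lˣ) d ∈ Hecke.X0Field L N, σ ⟨_, h⟩ ∈ S) :
    ∀ y, σ y ∈ S := by
  rintro ⟨y, hy⟩
  have hy' := (mem_X0Field_iff L N).mp hy
  revert hy
  rw [modularFunctionFieldFullC] at hy'
  induction hy' using adjoin_induction L with
  | mem z hz =>
    intro hzK
    obtain ⟨d, hd, hdd, rfl⟩ := hz
    have := hd
    have h : jv (1 : Lˣ) d ∈ Hecke.X0Field L N := by rw [Igusa.jv_one_eq_qExpand]; exact hzK
    convert hgen d hdd h using 3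
    exact (Igusa.jv_one_eq_qExpand d).symm
  | algebraMap c => exact fun _ => hC c
  | add a b ha hb iha ihb =>
    intro _
    rw [show (⟨a + b, _⟩ : Hecke.X0Field L N) = ⟨a, (mem_X0Field_iff L _).mpr ha⟩ +
      ⟨b, (mem_X0Field_iff L _).mpr hb⟩ from rfl, map_add]
    exact add_mem (iha _) (ihb _)
  | inv a ha iha =>
    intro _
    rw [show (⟨a⁻¹, _⟩ : Hecke.X0Field L N) =
      (⟨a, (mem_X0Field_iff L _).mpr ha⟩ : Hecke.X0Field L N)⁻¹ from rfl, map_inv₀]
    exact inv_mem (iha _)
  | mul a b ha hb iha ihb =>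
    intro _
    rw [show (⟨a * b, _⟩ : Hecke.X0Field L N) = ⟨a, (mem_X0Field_iff L _).mpr ha⟩ *
      ⟨b, (mem_X0Field_iff L _).mpr hb⟩ from rfl, map_mul]
    exact mul_mem (iha _) (ihb _)

/-- A root of `P` modulo `q` is not a root of `G`. -/
theorem eval₂_G_ne_zero {q n0 : ℕ} [NeZero q] [NeZero n0] (D : HauptData q n0)
    {κ : Type} [Field κ] [CharP κ q] {α : κ} (hP : D.P.eval₂ (Int.castRingHom κ) α = 0) :
    D.G.eval₂ (Int.castRingHom κ) α ≠ 0 := fun hG => by
  obtain ⟨a, b, hab⟩ := D.coprime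
  let ρ : ZMod q →+* κ := ZMod.castHom dvd_rfl _
  have h' := congrArg (eval₂ ρ α) hab
  rw [eval₂_add, eval₂_mul, eval₂_mul, eval₂_map, eval₂_map,
    RingHom.ext_int (ρ.comp (Int.castRingHom _)) (Int.castRingHom _), hP, hG, mul_zero,
    mul_zero, add_zero, eval₂_one] at h'
  exact zero_ne_one h'

/-- A power series root of `P - J G` does not reduce to a constant root of `G`. -/
theorem map_ne_C_of_root {q n0 : ℕ} [NeZero q] [NeZero n0] (D : HauptData q n0)
    {R κ : Type} [CommRing R] [Field κ] [CharP κ q] (res : R →+* κ) {x : PowerSeries R}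
    {J : LaurentSeries R}
    (hroot : D.P.eval₂ (Int.castRingHom _) (HahnSeries.ofPowerSeries ℤ R x) =
      J * D.G.eval₂ (Int.castRingHom _) (HahnSeries.ofPowerSeries ℤ R x))
    {α : κ} (hα : D.G.eval₂ (Int.castRingHom κ) α = 0) :
    PowerSeries.map res x ≠ PowerSeries.C α := fun hx => by
  have hx' : coeffMap res (HahnSeries.ofPowerSeries ℤ R x) = HahnSeries.C α := by
    rw [← PowerSeries.coe_C (R := κ), ← hx]
    ext j
    rw [coeffMap_coeff, PowerSeries.coeff_coe, PowerSeries.coeff_coe]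
    split_ifs <;> simp
  have h := congrArg (coeffMap res) hroot
  rw [map_mul, hom_eval₂, hom_eval₂, hx', RingHom.ext_int (RingHom.comp _ (Int.castRingHom _))
    ((HahnSeries.C : _ →+* LaurentSeries κ).comp (Int.castRingHom _)), ← hom_eval₂,
    ← hom_eval₂] at h
  rw [hα, map_zero, mul_zero, map_eq_zero_iff _ HahnSeries.C_injective] at h
  exact eval₂_G_ne_zero D h hα

/-- A map into the closure of a fraction field whose composites into `Ω` land in the image of the
fraction field has its values in the fraction field. -/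
theorem mem_range_of_lift {A R K Ω : Type} [CommRing A] [IsDomain A] [CommRing R] [Field K]
    [Field Ω] [IsAlgClosed Ω] (ε : FractionRing A →+* Ω) {g : R →+* K} {φ : R →+* A}
    {σ : K →+* AlgebraicClosure (FractionRing A)}
    (hσ : σ.comp g = (algebraMap A (AlgebraicClosure (FractionRing A))).comp φ)
    (h : ∀ σ' : K →+* Ω, σ'.comp g = (ε.comp (algebraMap A (FractionRing A))).comp φ →
      ∀ y, σ' y ∈ ε.fieldRange) (y : K) :
    ∃ b, algebraMap (FractionRing A) _ b = σ y := by
  let : Algebra (FractionRing A) Ω := ε.toAlgebra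
  let χ : AlgebraicClosure (FractionRing A) →ₐ[FractionRing A] Ω := IsAlgClosed.lift
  obtain ⟨b, hb⟩ := h (χ.toRingHom.comp σ) (by
    rw [RingHom.comp_assoc, hσ, ← RingHom.comp_assoc]
    congr 1
    refine RingHom.ext fun z => ?_
    rw [RingHom.comp_apply, IsScalarTower.algebraMap_apply A (FractionRing A)
      (AlgebraicClosure (FractionRing A))]
    exact χ.commutes _) y
  exact ⟨b, χ.toRingHom.injective ((χ.commutes b).trans hb)⟩

end Cusps

variable {q n0 : ℕ} [hq : Fact q.Prime] [NeZero q] [NeZero n0] (D : HauptData q n0)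
variable (W : Type) [CommRing W] [IsDomain W] [IsDiscreteValuationRing W]
  [IsAdicComplete (IsLocalRing.maximalIdeal W) W] [CharZero W]
  [IsAlgClosed (IsLocalRing.ResidueField W)]
  (L : Type) [Field L] [Algebra W L] [IsFractionRing W L] [Algebra ℚ L]
  (M : ℕ) [NeZero M] (hn : n0 ∣ M)

namespace HauptData

omit [IsDiscreteValuationRing W] [IsAdicComplete (IsLocalRing.maximalIdeal W) W] [CharZero W]
  [IsAlgClosed (IsLocalRing.ResidueField W)] [IsDomain W] [IsFractionRing W L] hq in
/-- `T` in the top field. -/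
theorem coe_topEval_X :
    ((D.topEval W L M hn X : Hecke.X0Field L (M * q * q)) : LaurentSeries L) =
      qExpand L q (D.tSer L) := by
  show ((midHom q L M (D.midEval W L M hn X) : Hecke.X0Field L (M * q * q)) : LaurentSeries L) = _
  rw [D.midEval_X, coe_midHom]
  rfl

omit [IsDiscreteValuationRing W] [IsAdicComplete (IsLocalRing.maximalIdeal W) W] [CharZero W]
  [IsAlgClosed (IsLocalRing.ResidueField W)] [IsDomain W] [IsFractionRing W L] hq in
theorem topEval_C (w : W) :
    D.topEval W L M hn (C w) = algebraMap L (Hecke.X0Field L (M * q * q)) (algebraMap W L w) := by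
  show midHom q L M (D.midEval W L M hn (C w)) = _
  rw [D.midEval_C, AlgHom.commutes]

omit [IsDiscreteValuationRing W] [IsAdicComplete (IsLocalRing.maximalIdeal W) W] [CharZero W]
  [IsAlgClosed (IsLocalRing.ResidueField W)] [IsDomain W] [IsFractionRing W L] hq in
/-- `j(qτ) G(T) = P(T)` in the top field. -/
theorem jq_mul_G (hjq : jv (1 : Lˣ) q ∈ Hecke.X0Field L (M * q * q)) :
    (⟨_, hjq⟩ : Hecke.X0Field L (M * q * q)) *
        D.G.eval₂ (Int.castRingHom _) (D.topEval W L M hn X) =
      D.P.eval₂ (Int.castRingHom _) (D.topEval W L M hn X) := by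
  refine (Hecke.X0Field L (M * q * q)).val.toRingHom.injective ?_
  rw [map_mul, hom_eval₂, hom_eval₂, RingHom.ext_int (RingHom.comp _ (Int.castRingHom _))
    (Int.castRingHom (LaurentSeries L))]
  show jv (1 : Lˣ) q * D.G.eval₂ _ ((D.topEval W L M hn X : Hecke.X0Field L (M * q * q)) :
    LaurentSeries L) = D.P.eval₂ _ ((D.topEval W L M hn X : Hecke.X0Field L (M * q * q)) :
    LaurentSeries L)
  have h := congrArg (qExpand L q) (D.jrel_eval₂ (R := L))
  rw [map_mul, hom_eval₂, hom_eval₂, RingHom.ext_int (RingHom.comp _ (Int.castRingHom _))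
    (Int.castRingHom (LaurentSeries L))] at h
  rw [D.coe_topEval_X, Igusa.jv_one_eq_qExpand]
  exact h

omit [IsDiscreteValuationRing W] [IsAdicComplete (IsLocalRing.maximalIdeal W) W] [CharZero W]
    [IsAlgClosed (IsLocalRing.ResidueField W)] [IsDomain W] [IsFractionRing W L] in
/-- Maps with prescribed value at `T` exist. -/
theorem exists_sigma {Ω : Type} [Field Ω] [IsAlgClosed Ω] (f : L →+* Ω) {τ : Ω}
    (hτ : Function.Injective (eval₂RingHom f τ)) :
    ∃ σ : Hecke.X0Field L (M * q * q) →+* Ω,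
      (∀ c, σ (algebraMap L _ c) = f c) ∧ σ (D.topEval W L M hn X) = τ := by
  classical
  have := charZero_of_algebraRat L
  set K := Hecke.X0Field L (M * q * q)
  set T : K := D.topEval W L M hn X with hT
  have hq0 := hq.out.ne_zero
  have hjq : jv (1 : Lˣ) q ∈ K := jv_mem_X0Field L _ hq0 (dvd_mul_left q (M * q))
  set jK : K := ⟨_, hjq⟩ with hjK
  have hTinj : Function.Injective (aeval T : L[X] →ₐ[L] K) := by
    intro x y h
    refine transcendental_iff_injective.mp (D.transcendental_tSer L) (qExpand_injective q ?_)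
    have h' := congrArg K.val h
    rw [← aeval_algHom_apply, ← aeval_algHom_apply] at h'
    have e : ∀ p : L[X], qExpand L q (aeval (D.tSer L) p) = aeval (K.val T) p := fun p => by
      rw [show qExpand L q (aeval (D.tSer L) p) = qExpandAlgHomC L q (aeval (D.tSer L) p) from rfl,
        ← aeval_algHom_apply]
      exact congrArg (fun u : LaurentSeries L => aeval u p) (D.coe_topEval_X W L M hn).symm
    rw [e, e]
    exact h'
  have htr : Transcendental L T := transcendental_iff_injective.mpr hTinj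
  -- finiteness
  have hjmem : jK ∈ L⟮T⟯ := by
    have h := D.jq_mul_G W L M hn hjq
    have hQ : ∀ Q : ℤ[X], Q.eval₂ (Int.castRingHom K) T = aeval T (Q.map (Int.castRingHom L)) :=
      fun Q => by
        rw [aeval_def, eval₂_map]
        congr 1
        exact RingHom.ext_int _ _
    rw [hQ, hQ] at h
    have hne : aeval T (D.G.map (Int.castRingHom L)) ≠ 0 := fun h0 =>
      (D.G_monic.map (Int.castRingHom L)).ne_zero (hTinj (by rw [h0, map_zero]))
    rw [hjK, eq_div_of_mul_eq hne h]
    exact div_mem (algebra_adjoin_le_adjoin L _ (aeval_mem_adjoin_singleton L _))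
      (algebra_adjoin_le_adjoin L _ (aeval_mem_adjoin_singleton L _))
  have hN : M * q * q ≠ 0 := mul_ne_zero (mul_ne_zero (NeZero.ne M) hq0) hq0
  have : NeZero (M * q * q) := ⟨hN⟩
  have : FiniteDimensional L⟮jK⟯ K := by
    refine FiniteDimensional.of_finrank_pos ?_
    have e : L⟮jK⟯ = L⟮jv (1 : Lˣ) q⟯.comap K.val := by
      refine SetLike.ext fun y => ?_
      rw [← IntermediateField.mem_lift, IntermediateField.lift_adjoin_simple]
      rfl
    rw [e, IntermediateField.finrank_comap, IntermediateField.fieldRange_val,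
      relfinrank_jv L _ hq0 (dvd_mul_left q (M * q))]
    exact Igusa.psi_pos _
  have hle : L⟮jK⟯ ≤ L⟮T⟯ := adjoin_simple_le_iff.mpr hjmem
  have : Algebra.IsAlgebraic L⟮T⟯ K := ⟨fun y => by
    obtain ⟨P, hP, hPy⟩ := IsIntegral.of_finite L⟮jK⟯ y
    refine (IsIntegral.isAlgebraic
      ⟨P.map (IntermediateField.inclusion hle).toRingHom, hP.map _, ?_⟩)
    rw [eval₂_map]
    exact hPy⟩
  -- the base map
  let e := RatFunc.algEquivOfTranscendental T htr
  let ρ : L⟮T⟯ →+* Ω :=
    (IsFractionRing.lift (K := RatFunc L) hτ).comp (e.symm : L⟮T⟯ →+* RatFunc L)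
  have hρgen : ρ (AdjoinSimple.gen L T) = τ := by
    have h := RatFunc.algEquivOfTranscendental_symm_aeval T htr Polynomial.X
    rw [aeval_X] at h
    show IsFractionRing.lift hτ (e.symm (AdjoinSimple.gen L T)) = _
    rw [h, IsFractionRing.lift_algebraMap]
    simp
  have hρC : ∀ c : L, ρ (algebraMap L _ c) = f c := fun c => by
    show IsFractionRing.lift hτ (e.symm (algebraMap L _ c)) = _
    rw [AlgEquiv.commutes, IsScalarTower.algebraMap_apply L L[X] (RatFunc L),
      IsFractionRing.lift_algebraMap]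
    simp
  let : Algebra L⟮T⟯ Ω := ρ.toAlgebra
  refine ⟨(IsAlgClosed.lift : K →ₐ[L⟮T⟯] Ω).toRingHom, fun c => ?_, ?_⟩
  · rw [← hρC]
    exact (IsAlgClosed.lift : K →ₐ[L⟮T⟯] Ω).commutes (algebraMap L L⟮T⟯ c)
  · rw [← hρgen]
    exact (IsAlgClosed.lift : K →ₐ[L⟮T⟯] Ω).commutes (AdjoinSimple.gen L T)

omit [CharZero W] in
/-- Over every cusp of the middle line a series place splits the top field completely. -/
theorem cuspsSplit (hmax : IsLocalRing.maximalIdeal W = Ideal.span {(q : W)})
    (hqM : ¬ q ∣ M) :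
    letI := D.topAlgebra W L M hn
    CuspsSplit D W (Hecke.X0Field L (M * q * q)) := by
  classical
  have := charZero_of_algebraRat L
  set K := Hecke.X0Field L (M * q * q)
  let : Algebra W[X] K := D.topAlgebra W L M hn
  have hq0 := hq.out.ne_zero
  have hM0 := NeZero.ne M
  have : NeZero (M * q * q) := ⟨mul_ne_zero (mul_ne_zero hM0 hq0) hq0⟩
  let E := AlgebraicClosure L
  have : CharZero E := charZero_of_injective_ringHom (algebraMap L E).injective
  let : Algebra W E := ((algebraMap L E).comp (algebraMap W L)).toAlgebra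
  have hinjW : Function.Injective (algebraMap W E) :=
    (algebraMap L E).injective.comp (IsFractionRing.injective W L)
  have : NeZero (q : E) := ⟨Nat.cast_ne_zero.mpr hq0⟩
  obtain ⟨ζ, hζ⟩ := HasEnoughRootsOfUnity.exists_primitiveRoot E q
  obtain ⟨B, hB1, hB2, hB3, i, hi, hic, z, hz⟩ :=
    Cusps.exists_seriesBase hq.out hmax hinjW hζ
  obtain ⟨e, e₀, he, he₀, hee₀⟩ := Cusps.exists_fracHom (R := B.R) hi
  set n := q * M
  have hn0' : n ≠ 0 := mul_ne_zero hq0 hM0
  set J : LaurentSeries B.R := jv (1 : B.Rˣ) n with hJ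
  set em := coeffMap i
  have hem : Function.Injective em := MF.coeffMap_injective hi
  have hemJ : em J = jv (1 : Eˣ) n := by
    rw [hJ, Igusa.coeffMap_jv _ _ hn0', map_one]
  let Ω := AlgebraicClosure (LaurentSeries E)
  let ι : LaurentSeries E →+* Ω := algebraMap _ Ω
  let f : L →+* Ω := (ι.comp HahnSeries.C).comp (algebraMap L E)
  have hfW : ∀ w, f (algebraMap W L w) = ι (em (HahnSeries.C (B.coe w))) := fun w => by
    rw [show em (HahnSeries.C (B.coe w)) = HahnSeries.C (algebraMap W E w) by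
      rw [← hic]; exact Igusa.coeffMap_C _ _]
    rfl
  -- integral polynomials
  have hintR : ∀ (Q : ℤ[X]) (x : LaurentSeries B.R),
      ι (em (Q.eval₂ (Int.castRingHom _) x)) =
        Q.eval₂ (Int.castRingHom Ω) (ι (em x)) := fun Q x => by
    rw [hom_eval₂, hom_eval₂]
    congr 1
    exact RingHom.ext_int _ _
  -- roots of `P - J G` are transcendental
  have htrans : ∀ τ : Ω, D.P.eval₂ (Int.castRingHom Ω) τ =
      ι (em J) * D.G.eval₂ (Int.castRingHom Ω) τ →
      ∀ p : E[X], eval₂ (ι.comp HahnSeries.C) τ p = 0 → p = 0 := fun τ hτ p hp =>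
    Cusps.eq_zero_of_eval₂_root D hq.out ι hn0' (hemJ ▸ hτ) hp
  have hGne : ∀ τ : Ω, D.P.eval₂ (Int.castRingHom Ω) τ =
      ι (em J) * D.G.eval₂ (Int.castRingHom Ω) τ → D.G.eval₂ (Int.castRingHom Ω) τ ≠ 0 :=
    fun τ hτ => Cusps.eval₂_G_ne_zero_of_root D hq.out ι hn0' (hemJ ▸ hτ)
  -- every map over such a root has values in series over `B.R`
  set S := (ι.comp e).fieldRange
  have hS : ∀ x, ι (em x) ∈ S := fun x => ⟨algebraMap _ _ x, congrArg ι (he x)⟩
  have hfS : ∀ c, f c ∈ S := fun c => by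
    obtain ⟨w, u, -, rfl⟩ := IsFractionRing.div_surjective W c
    rw [map_div₀, hfW, hfW]
    exact div_mem (hS _) (hS _)
  have hrange : ∀ (σ : K →+* Ω), (∀ c, σ (algebraMap L K c) = f c) →
      D.P.eval₂ (Int.castRingHom Ω) (σ (D.topEval W L M hn X)) =
        ι (em J) * D.G.eval₂ (Int.castRingHom Ω) (σ (D.topEval W L M hn X)) →
      ∀ y, σ y ∈ S := by
    intro σ hσC hτ
    have hjq : jv (1 : Lˣ) q ∈ K := jv_mem_X0Field L _ hq0 (dvd_mul_left q (M * q))
    have hσq : σ ⟨_, hjq⟩ = ι (jv (1 : Eˣ) (q * M)) := by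
      have h := congrArg σ (D.jq_mul_G W L M hn hjq)
      rw [map_mul, hom_eval₂, hom_eval₂, RingHom.ext_int (σ.comp (Int.castRingHom _))
        (Int.castRingHom Ω), hτ] at h
      rw [← hemJ]
      exact mul_right_cancel₀ (hGne _ hτ) h
    refine Cusps.apply_mem_of_generators σ (fun c => hσC c ▸ hfS c) fun d hdd hzK => ?_
    obtain ⟨η, m, hm, hη, hval⟩ := Cusps.exists_value ι hq.out hM0 rfl σ hσC hjq hσq hdd (h := hzK)
    obtain ⟨r, hr⟩ := Cusps.exists_unit_eq hi hic hq.out hmax hinjW hζ hz hM0 hqM hη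
    rw [← hr, ← Igusa.coeffMap_jv i r hm] at hval
    rw [hval]
    exact hS _
  -- the roots
  have := hB1
  have := isIntegrallyClosed_laurent_of_pid B.R
  obtain ⟨s, hs, hsroot⟩ := Cusps.exists_split_roots D (ι.comp e) J fun τ hτ => by
    rw [RingHom.comp_apply, he] at hτ
    have hinjf : Function.Injective (eval₂RingHom f τ) := by
      rw [injective_iff_map_eq_zero]
      intro p hp
      refine Polynomial.map_injective _ (algebraMap L E).injective ?_
      rw [Polynomial.map_zero]
      refine htrans τ hτ _ ?_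
      rw [eval₂_map]
      exact hp
    obtain ⟨σ, hσC, hσT⟩ := D.exists_sigma W L M hn f hinjf
    rw [← hσT]
    exact hrange σ hσC (by rw [hσT]; exact hτ) _
  obtain ⟨hJord, hJlead⟩ := Cusps.order_jv_one (R := B.R) hn0'
  have hJneg : J.order < 0 := by
    rw [hJ, hJord]
    have : 0 < n := Nat.pos_of_ne_zero hn0'
    omega
  -- the values on `W[T]`
  have hrestrict : ∀ (σ : K →+* Ω) (x : LaurentSeries B.R),
      σ.comp (algebraMap W[X] K) = (ι.comp em).comp (B.evalS x) →
      (∀ c, σ (algebraMap L K c) = f c) ∧ σ (D.topEval W L M hn X) = ι (em x) := by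
    intro σ x h
    refine ⟨fun c => ?_, ?_⟩
    · have hw : ∀ w, σ (algebraMap L K (algebraMap W L w)) = f (algebraMap W L w) := fun w => by
        rw [← D.topEval_C W L M hn, hfW]
        refine (RingHom.congr_fun h (C w)).trans ?_
        simp [SeriesBase.evalS]
      obtain ⟨w, u, -, rfl⟩ := IsFractionRing.div_surjective W c
      simp only [map_div₀, hw]
    · refine (RingHom.congr_fun h X).trans ?_
      simp [SeriesBase.evalS]
  refine ⟨fun α hα => ?_, ?_⟩
  · obtain ⟨τ, hτs, hτ0, hτα⟩ := Cusps.exists_root_at B.res D.P_monic D.G_monic D.G_degree hJlead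
      hJneg hs hα
    obtain ⟨x, rfl⟩ := Cusps.exists_powerSeries hτ0
    refine ⟨B, hB1, hB2, hB3, x, ?_, ?_, fun σ hσ y => ?_⟩
    · rw [← hτα, ← PowerSeries.coeff_zero_eq_constantCoeff, PowerSeries.coeff_coe]
      simp
    · intro hx
      have : CharP (IsLocalRing.ResidueField W) q := (CharP.charP_iff_prime_eq_zero hq.out).mpr (by
        rw [← map_natCast (IsLocalRing.residue W), IsLocalRing.residue_eq_zero_iff, hmax]
        exact Ideal.mem_span_singleton_self _)
      exact Cusps.map_ne_C_of_root D B.res (hsroot _ hτs) (by rwa [eval_map] at hα) hx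
    · refine Cusps.mem_range_of_lift (ι.comp e₀) hσ (fun σ' hσ' y => ?_) y
      obtain ⟨h1, h2⟩ := hrestrict σ' (HahnSeries.ofPowerSeries ℤ B.R x) (by
        rw [hσ', show (ι.comp e₀).comp (algebraMap (PowerSeries B.R) _) =
          (ι.comp em).comp (HahnSeries.ofPowerSeries ℤ B.R) from
            RingHom.ext fun z => congrArg ι (he₀ z)]
        refine Polynomial.ringHom_ext (fun w => ?_) (by simp [SeriesBase.evalS])
        simp [SeriesBase.evalS, HahnSeries.ofPowerSeries_C])
      obtain ⟨a, ha⟩ := hrange _ h1 (by rw [h2, ← hintR, ← hintR, ← map_mul, ← map_mul,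
        hsroot _ hτs]) y
      obtain ⟨b, hb⟩ := hee₀ a
      exact ⟨b, (congrArg ι hb).trans ha⟩
  · obtain ⟨τ, hτs, hτ0, hτneg⟩ := Cusps.exists_root_pole (P := D.P) D.G_monic hJneg
      (by rw [← HahnSeries.leadingCoeff_eq, hJlead]; exact one_ne_zero) hs
    refine ⟨B, hB1, hB2, hB3, τ, τ.order, hτneg,
      fun j hj => HahnSeries.coeff_eq_zero_of_lt_order hj, ?_, fun σ hσ y => ?_⟩
    · rw [← HahnSeries.leadingCoeff_eq]
      exact ((Cusps.isUnit_leadingCoeff D.P_monic D.G_monic D.G_degree hJlead hτ0 hτneg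
        (hsroot τ hτs)).map B.res).ne_zero
    · refine Cusps.mem_range_of_lift (ι.comp e) hσ (fun σ' hσ' => ?_) y
      obtain ⟨h1, h2⟩ := hrestrict σ' τ (by
        rw [hσ', show (ι.comp e).comp (algebraMap (LaurentSeries B.R) _) = ι.comp em from
          RingHom.ext fun z => congrArg ι (he z)])
      exact hrange _ h1 (by rw [h2, ← hintR, ← hintR, ← map_mul, ← map_mul, hsroot _ hτs])

end HauptData

end Fermat.Agent.SquareLevel
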