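import Fermat.Agent.SquareLevel.Tower.Norm

/-!
# From the top of the tower back to level `M₀ q²`
-/

noncomputable section

open Polynomial IntermediateField ModularCurve AlgebraicCurve

namespace Fermat.Agent.SquareLevel

/-- A power of an element which is a constant times an `m`-th power upstairs, taken down by the
norm. -/
theorem isConstMulPow_pow_of_map (L : Type) [Field L] {F K : Type} [Field F] [Field K] [Algebra L F]
    [Algebra L K] (φ : F →ₐ[L] K) {f : F} {C m : ℕ} (k : ℕ) (h : IsConstMulPow L m (φ f ^ C)) :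
    IsConstMulPow L m (f ^ (C * (finrankAlong L φ * k))) := by
  let := algebraAlong φ
  have := isScalarTower_along φ
  obtain ⟨c, y, hy⟩ := h
  have hnorm := congrArg (Algebra.norm F) hy
  rw [map_mul, map_pow, map_pow, show φ f = algebraMap F K f from rfl, Algebra.norm_algebraMap,
    IsScalarTower.algebraMap_apply L F K, Algebra.norm_algebraMap] at hnorm
  refine ⟨(c ^ finrankAlong L φ) ^ k, (Algebra.norm F y) ^ k, ?_⟩
  rw [← mul_assoc, mul_comm C, pow_mul, pow_mul, map_pow, map_pow, ← pow_mul _ k m, mul_comm k m,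
    pow_mul, ← mul_pow]
  exact congrArg (· ^ k) hnorm

variable {q n0 : ℕ} [hq : Fact q.Prime] [NeZero q] [NeZero n0] (D : HauptData q n0)

/-- The statement for level `M₀ q²` follows from the one for the top of the tower. -/
theorem HauptData.exists_top_lift (L : Type) [Field L] [Algebra ℚ L] (M₀ M : ℕ) [NeZero M₀]
    [NeZero M] (hMM : M₀ ∣ M) (hqM : ¬ q ∣ M) (hn : n0 ∣ M) (C m : ℕ)
    (f : Hecke.X0Field L (M₀ * q * q)) (hf : f ≠ 0) (hord : OrdsDivisible (L := L) m f)
    (hα : IsConstMulPow L m (normAlong (heckeAlphaBar L (M₀ * q) q) f))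
    (hβ : IsConstMulPow L m (normAlong (heckeBetaBar L (M₀ * q) q) f))
    (hcore : letI := midTopAlgebra (q := q) L M
      ∀ f' : Hecke.X0Field L (M * q * q), f' ≠ 0 → OrdsDivisible (L := L) m f' →
        NormPow (F := Hecke.X0Field L M) L m (D.aTop L M hn) f' →
        NormPow (F := Hecke.X0Field L M) L m (D.bTop L M hn) f' →
        IsConstMulPow L m (f' ^ C)) :
    IsConstMulPow L m (f ^ (C * Igusa.psi (M * q * q))) := by
  have := charZero_of_algebraRat L
  set incl := inclLevel L (Nat.mul_dvd_mul_right (Nat.mul_dvd_mul_right hMM q) q) with hincl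
  have hk : Igusa.psi (M₀ * q * q) * finrankAlong L incl = Igusa.psi (M * q * q) :=
    psi_mul_finrankAlong L incl one_ne_zero (one_dvd _)
      ((coe_inclLevel L _ _).trans (coe_jElt L _))
  rw [← hk, mul_comm (Igusa.psi (M₀ * q * q))]
  exact isConstMulPow_pow_of_map L incl _ (hcore _ ((map_ne_zero incl).mpr hf)
    (ordsDivisible_inclLevel L _ hord) (D.normPow_a L hMM hn hqM f hβ)
    (D.normPow_b L hMM hn hqM f hα))

end Fermat.Agent.SquareLevel
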