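import Fermat.Agent.SquareLevel.Hauptmodul.Split
import Fermat.Agent.SquareLevel.Tower.Base

/-!
# The middle field splits completely over the points off the cusps
-/

noncomputable section

open Polynomial IntermediateField ModularCurve AlgebraicCurve

namespace Fermat.Agent.SquareLevel

variable {q n0 : ℕ} [hq : Fact q.Prime] [NeZero q] [NeZero n0] (D : HauptData q n0)
variable (W : Type) [CommRing W] [IsDomain W] [IsDiscreteValuationRing W]
  [IsAdicComplete (IsLocalRing.maximalIdeal W) W] [CharZero W]
  [IsAlgClosed (IsLocalRing.ResidueField W)]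
  (L : Type) [Field L] [Algebra W L] [IsFractionRing W L]
  [Algebra ℚ L] (M : ℕ) [NeZero M] (hn : n0 ∣ M)

namespace HauptData

omit hq in
/-- Over a point off the cusps every embedding of the middle field is rational. -/
theorem splitsAt (hmax : IsLocalRing.maximalIdeal W = Ideal.span {(q : W)})
    (hdeg : D.P.natDegree = Igusa.psi n0) (hsplit : LevelSplit D M) :
    letI := D.midAlgebra W L M hn
    SplitsAt D W (Hecke.X0Field L M) := by
  classical
  let := D.midAlgebra W L M hn
  intro a ha σ hσ
  obtain ⟨m, ψ, hm, hψinj, hψC, hψt⟩ := hsplit W L hmax a ha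
  let := D.fracAlgebra W L M hn
  have := D.finite_mid W L M hn
  have : CharZero (FractionRing W[X]) := charZero_of_injective_ringHom
    (f := (algebraMap W[X] (FractionRing W[X])).comp C)
    ((IsFractionRing.injective W[X] (FractionRing W[X])).comp C_injective)
  let g : W[X] →+* AlgebraicClosure (FractionRing (PowerSeries W)) :=
    (algebraMap (PowerSeries W) _).comp (shiftSeries a)
  have hg : Function.Injective g := by
    have h : Function.Injective (algebraMap (PowerSeries W)
        (AlgebraicClosure (FractionRing (PowerSeries W)))) := by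
      rw [IsScalarTower.algebraMap_eq (PowerSeries W) (FractionRing (PowerSeries W))
        (AlgebraicClosure (FractionRing (PowerSeries W)))]
      exact (algebraMap (FractionRing (PowerSeries W)) _).injective.comp
        (IsFractionRing.injective (PowerSeries W) _)
    exact h.comp (shiftSeries_injective a)
  let : Algebra (FractionRing W[X]) (AlgebraicClosure (FractionRing (PowerSeries W))) :=
    (IsFractionRing.lift hg).toAlgebra
  -- homomorphisms over `W[T]` are maps over `Frac W[T]`
  have mk : ∀ f : Hecke.X0Field L M →+* AlgebraicClosure (FractionRing (PowerSeries W)),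
      f.comp (algebraMap W[X] (Hecke.X0Field L M)) = g →
      ∃ f' : Hecke.X0Field L M →ₐ[FractionRing W[X]]
          AlgebraicClosure (FractionRing (PowerSeries W)), f'.toRingHom = f := by
    intro f hf
    have h : f.comp (algebraMap (FractionRing W[X]) (Hecke.X0Field L M)) =
        algebraMap (FractionRing W[X]) (AlgebraicClosure (FractionRing (PowerSeries W))) := by
      refine IsLocalization.ringHom_ext (nonZeroDivisors W[X]) (RingHom.ext fun x => ?_)
      rw [RingHom.comp_apply, RingHom.comp_apply, RingHom.comp_apply]
      show f (IsFractionRing.lift (D.midEval_injective W L M hn) _) = IsFractionRing.lift hg _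
      rw [IsFractionRing.lift_algebraMap, IsFractionRing.lift_algebraMap, ← hf]
      rfl
    exact ⟨{ f with commutes' := fun x => RingHom.congr_fun h x }, rfl⟩
  have hψg : ∀ i, ((algebraMap (FractionRing (PowerSeries W))
      (AlgebraicClosure (FractionRing (PowerSeries W)))).comp (ψ i)).comp
        (algebraMap W[X] (Hecke.X0Field L M)) = g := by
    intro i
    refine Polynomial.ringHom_ext (fun w => ?_) ?_
    · show algebraMap _ _ (ψ i (D.midEval W L M hn (C w))) = g (C w)
      rw [D.midEval_C]
      refine (congrArg _ (hψC i w)).trans ?_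
      show _ = algebraMap _ _ (shiftSeries a (C w))
      rw [shiftSeries_C, ← IsScalarTower.algebraMap_apply]
    · show algebraMap _ _ (ψ i (D.midEval W L M hn X)) = g X
      rw [D.midEval_X]
      refine (congrArg _ (hψt i _ rfl)).trans ?_
      show _ = algebraMap _ _ (shiftSeries a X)
      rw [shiftSeries_X, ← IsScalarTower.algebraMap_apply]
  choose Ψ hΨ using fun i => mk _ (hψg i)
  have hcard : Fintype.card (Hecke.X0Field L M →ₐ[FractionRing W[X]]
      AlgebraicClosure (FractionRing (PowerSeries W))) ≤ Fintype.card (Fin m) := by
    rw [AlgHom.card, Fintype.card_fin]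
    refine Nat.le_of_mul_le_mul_left ?_ (Igusa.psi_pos n0)
    rw [D.finrank_mid W L M hn, ← Igusa.natCard_coset_eq_psi, show
      Nat.card (Grp.X0Coset M) = (CongruenceSubgroup.Gamma0 M).index from rfl, ← hm, hdeg, mul_comm]
  have hinj : Function.Injective Ψ := fun i j h => hψinj (RingHom.ext fun x =>
    (algebraMap (FractionRing (PowerSeries W))
      (AlgebraicClosure (FractionRing (PowerSeries W)))).injective (by
      have hi := RingHom.congr_fun (hΨ i) x
      have hj := RingHom.congr_fun (hΨ j) x
      rw [RingHom.comp_apply] at hi hj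
      rw [← hi, ← hj, h]))
  obtain ⟨σ', hσ'⟩ := mk σ hσ
  obtain ⟨i, rfl⟩ := ((Fintype.bijective_iff_injective_and_card Ψ).mpr
    ⟨hinj, le_antisymm (Fintype.card_le_of_injective Ψ hinj) hcard⟩).2 σ'
  intro y
  exact ⟨ψ i y, by rw [← hσ', hΨ i]; rfl⟩

end HauptData

end Fermat.Agent.SquareLevel
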