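import Fermat.Agent.SquareLevel.GlobalRoot

/-!
# The local ring at the Gauss prime is a discrete valuation ring
-/

noncomputable section

open Polynomial

namespace Fermat.Agent.SquareLevel

variable {W : Type} [CommRing W] [IsDomain W] [IsDiscreteValuationRing W] {q : ℕ}

theorem maximalIdeal_gaussLoc (hmax : IsLocalRing.maximalIdeal W = Ideal.span {(q : W)}) :
    IsLocalRing.maximalIdeal (GaussLoc W) = Ideal.span {(q : GaussLoc W)} := by
  rw [← Localization.AtPrime.map_eq_maximalIdeal]
  show ((IsLocalRing.maximalIdeal W).map (C : W →+* W[X])).map _ = _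
  rw [hmax, Ideal.map_span, Set.image_singleton,
    Ideal.map_span, Set.image_singleton, map_natCast, map_natCast]

theorem natCast_gaussLoc_ne_zero [CharZero W] (hq : q.Prime) : (q : GaussLoc W) ≠ 0 := by
  rw [← map_natCast (algebraMap W[X] (GaussLoc W))]
  refine fun h => hq.ne_zero ?_
  exact_mod_cast (IsLocalization.injective (GaussLoc W)
    (gaussPrime W).primeCompl_le_nonZeroDivisors) (h.trans (map_zero _).symm)

theorem isDiscreteValuationRing_gaussLoc [CharZero W] (hq : q.Prime)
    (hmax : IsLocalRing.maximalIdeal W = Ideal.span {(q : W)}) :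
    IsDiscreteValuationRing (GaussLoc W) := by
  have : IsNoetherianRing (GaussLoc W) :=
    IsLocalization.isNoetherianRing (gaussPrime W).primeCompl (GaussLoc W) inferInstance
  have hm := maximalIdeal_gaussLoc (q := q) hmax
  have hf : ¬ IsField (GaussLoc W) := fun h => natCast_gaussLoc_ne_zero (W := W) hq (by
    have := (IsLocalRing.isField_iff_maximalIdeal_eq).mp h
    rw [hm, Ideal.span_singleton_eq_bot] at this
    exact this)
  have h04 : IsDiscreteValuationRing (GaussLoc W) ↔
      (IsLocalRing.maximalIdeal (GaussLoc W)).IsPrincipal :=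
    (IsDiscreteValuationRing.TFAE (GaussLoc W) hf).out 0 4
  exact h04.mpr
    ⟨⟨(q : GaussLoc W), hm⟩⟩

end Fermat.Agent.SquareLevel
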