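import Fermat.Agent.Igusa.SmoothRed
import Fermat.Agent.SquareLevel.Counting
import Fermat.Agent.SquareLevel.Tower.Base
import Fermat.Agent.SquareLevel.Tower.GaussDVR

/-!
# Good reduction of the middle field at the Gauss prime

The expansion at the cusp gives a residual map of the integral closure into `k((u))`.
-/

noncomputable section

open Polynomial IntermediateField ModularCurve AlgebraicCurve
open Fermat.Agent.Igusa (jv evalAt)

namespace Fermat.Agent.SquareLevel

variable {q n0 : ℕ} [hq : Fact q.Prime] [NeZero q] [NeZero n0] (D : HauptData q n0)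
variable (W : Type) [CommRing W] [IsDomain W] [IsDiscreteValuationRing W] [CharZero W]
  [IsAlgClosed (IsLocalRing.ResidueField W)]
  (L : Type) [Field L] [Algebra W L] [IsFractionRing W L]
  [Algebra ℚ L] (M : ℕ) [NeZero M] (hn : n0 ∣ M)

local notation "k" => IsLocalRing.ResidueField W

/-- Reduction of integral elements compatible with the series expansion. -/
structure MidResidue [Algebra (GaussLoc W) (Hecke.X0Field L M)]
    (B : Subalgebra (GaussLoc W) (Hecke.X0Field L M)) where
  /-- The residual map into Laurent series, reducing the coefficients of the expansion. -/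
  res : B →+* LaurentSeries k
  res_series : ∀ (y : B) (z : LaurentSeries W),
    ((y : Hecke.X0Field L M) : LaurentSeries L) = coeffMap (algebraMap W L) z →
      res y = coeffMap (IsLocalRing.residue W) z

namespace HauptData

omit [CharZero W] [IsAlgClosed k] hq in
/-- The residual expansion of integral elements. -/
theorem nonempty_midResidue :
    letI := D.gaussAlgebra W L M hn
    Nonempty (MidResidue W L M (integralClosure (GaussLoc W) (Hecke.X0Field L M))) := by
  classical
  let := D.gaussAlgebra W L M hn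
  let := D.midAlgebra W L M hn
  have : IsScalarTower W[X] (GaussLoc W) (Hecke.X0Field L M) :=
    IsScalarTower.of_algebraMap_eq fun x => (IsLocalization.lift_eq _ x).symm
  let A := LaurentSeries W
  let Φ := FractionRing A
  set ψ := coeffMap (algebraMap W L) with hψ
  have hψinj : Function.Injective ψ := MF.coeffMap_injective (IsFractionRing.injective W L)
  let e : Φ →+* LaurentSeries L := IsFractionRing.lift (A := A) (g := ψ) hψinj
  have he : ∀ z, e (algebraMap A Φ z) = ψ z := fun z => IsFractionRing.lift_algebraMap hψinj z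
  -- the field lies in the range
  have hrange : ∀ y : LaurentSeries L, y ∈ Hecke.X0Field L M → y ∈ e.fieldRange := by
    intro y hy
    rw [mem_X0Field_iff, modularFunctionFieldFullC] at hy
    induction hy using adjoin_induction L with
    | mem z hz =>
      obtain ⟨d, hd, -, rfl⟩ := hz
      exact ⟨algebraMap A Φ (qExpand W d (jqModC W)), by
        rw [he, hψ, coeffMap_qExpand, coeffMap_jqModC]⟩
    | algebraMap c =>
      obtain ⟨w, u, -, rfl⟩ := IsFractionRing.div_surjective W c
      rw [map_div₀]
      refine div_mem ⟨algebraMap A Φ (HahnSeries.C w), ?_⟩ ⟨algebraMap A Φ (HahnSeries.C u), ?_⟩ <;>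
      · rw [he, hψ, Igusa.coeffMap_C, algebraMap_laurentSeries_eq_single]; rfl
    | add z w _ _ hz hw => exact add_mem hz hw
    | inv z _ hz => exact inv_mem hz
    | mul z w _ _ hz hw => exact mul_mem hz hw
  choose θ0 hθ0 using fun y : Hecke.X0Field L M => RingHom.mem_fieldRange.mp (hrange _ y.2)
  let θ : Hecke.X0Field L M →+* Φ :=
    { toFun := θ0
      map_one' := e.injective (by rw [hθ0, map_one]; rfl)
      map_mul' := fun x y => e.injective (by rw [map_mul, hθ0, hθ0, hθ0]; rfl)
      map_zero' := e.injective (by rw [hθ0, map_zero]; rfl)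
      map_add' := fun x y => e.injective (by rw [map_add, hθ0, hθ0, hθ0]; rfl) }
  -- `W[T] → W((u))`
  let ε : W[X] →+* A := evalAt (coeffMap (Int.castRingHom W) D.t)
  have hψε : ∀ P : W[X], ψ (ε P) = (D.midEval W L M hn P : LaurentSeries L) := fun P => by
    rw [D.coe_midEval, hψ, D.aeval_tSer, Igusa.coeffMap_evalAt, coeffMap_coeffMap]
    rw [RingHom.ext_int ((algebraMap W L).comp (Int.castRingHom W)) (Int.castRingHom L)]
    rfl
  have hθε : ∀ P : W[X], θ (algebraMap W[X] (Hecke.X0Field L M) P) = algebraMap A Φ (ε P) :=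
    fun P => e.injective (by rw [he, hψε]; exact hθ0 _)
  let red : A →+* LaurentSeries k := coeffMap (IsLocalRing.residue W)
  have hred : ∀ s : W[X], s ∉ gaussPrime W → red (ε s) ≠ 0 := fun s hs h => hs (by
    rw [mem_gaussPrime_iff]
    refine ((D.unitPole_t.map (Int.castRingHom k))).evalAt_injective ?_
    rw [map_zero, ← h]
    show _ = coeffMap _ _
    rw [Igusa.coeffMap_evalAt, coeffMap_coeffMap,
      RingHom.ext_int ((IsLocalRing.residue W).comp (Int.castRingHom W)) (Int.castRingHom k)])
  -- the ring of series is integrally closed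
  have : IsDomain A := inferInstance
  have : UniqueFactorizationMonoid A :=
    UniqueFactorizationMonoid.of_isLocalization (Submonoid.powers (PowerSeries.X : PowerSeries W)) A
  set B := integralClosure (GaussLoc W) (Hecke.X0Field L M)
  have hex : ∀ y : B, ∃ p : A × W[X], p.2 ∉ gaussPrime W ∧
      θ (y : Hecke.X0Field L M) * algebraMap A Φ (ε p.2) = algebraMap A Φ p.1 := by
    intro y
    obtain ⟨⟨s, hs⟩, hint⟩ := IsIntegral.exists_multiple_integral_of_isLocalization
      (M := (gaussPrime W).primeCompl) (y : Hecke.X0Field L M) y.2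
    obtain ⟨P, hP, hPy⟩ := hint
    have hΦ : IsIntegral A (θ (s • (y : Hecke.X0Field L M))) := by
      refine ⟨P.map ε, hP.map _, ?_⟩
      rw [eval₂_map, show (algebraMap A Φ).comp ε = θ.comp (algebraMap W[X] _) from
        RingHom.ext fun Q => (hθε Q).symm]
      exact (hom_eval₂ P _ θ _).symm.trans ((congrArg θ hPy).trans (map_zero θ))
    obtain ⟨z, hz⟩ := IsIntegrallyClosed.isIntegral_iff.mp hΦ
    refine ⟨(z, s), hs, ?_⟩
    rw [hz, Algebra.smul_def, map_mul, hθε, mul_comm]
  choose p hp hpeq using hex
  have hred' : ∀ y : B, red (ε (p y).2) ≠ 0 := fun y => hred _ (hp y)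
  let ρ : B → LaurentSeries k := fun y => red (p y).1 / red (ε (p y).2)
  have huniq : ∀ (y : B) (z : A) (s : W[X]), s ∉ gaussPrime W →
      θ (y : Hecke.X0Field L M) * algebraMap A Φ (ε s) = algebraMap A Φ z →
        ρ y = red z / red (ε s) := by
    intro y z s hs h
    have h' : (p y).1 * ε s = z * ε (p y).2 := IsFractionRing.injective A Φ (by
      rw [map_mul, map_mul, ← hpeq, ← h]; ring)
    rw [div_eq_div_iff (hred' y) (hred s hs), ← map_mul, h', map_mul]
  have h1 : (1 : W[X]) ∉ gaussPrime W := fun h => (inferInstance : (gaussPrime W).IsPrime).ne_top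
    ((Ideal.eq_top_iff_one _).mpr h)
  let res : B →+* LaurentSeries k :=
    { toFun := ρ
      map_one' := by rw [huniq 1 1 1 h1 (by simp)]; simp
      map_zero' := by rw [huniq 0 0 1 h1 (by simp)]; simp
      map_mul' := fun x y => by
        rw [huniq (x * y) ((p x).1 * (p y).1) ((p x).2 * (p y).2)
          (fun h => ((inferInstance : (gaussPrime W).IsPrime).mem_or_mem h).elim (hp x) (hp y))
          (by rw [Subalgebra.coe_mul, map_mul, map_mul, map_mul, map_mul, ← hpeq, ← hpeq]; ring),
          div_mul_div_comm, map_mul, map_mul, map_mul]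
      map_add' := fun x y => by
        rw [huniq (x + y) ((p x).1 * ε (p y).2 + (p y).1 * ε (p x).2) ((p x).2 * (p y).2)
          (fun h => ((inferInstance : (gaussPrime W).IsPrime).mem_or_mem h).elim (hp x) (hp y))
          (by rw [Subalgebra.coe_add, map_add, map_mul, map_add, map_mul, map_mul, map_mul,
                ← hpeq, ← hpeq]
              ring),
          div_add_div _ _ (hred' x) (hred' y), map_add, map_mul, map_mul, map_mul, map_mul]
        ring }
  refine ⟨⟨res, fun y z hz => ?_⟩⟩
  show ρ y = _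
  rw [huniq y z 1 h1 (e.injective (by rw [map_one, map_one, mul_one, he, hψ, ← hz]; exact hθ0 _))]
  simp [red]

end HauptData

/-- A residual map with a large image forces the prime to be inert. -/
theorem isMaximal_span_of_residual {O F0 F K1 E : Type} [CommRing O] [IsDomain O]
    [IsDiscreteValuationRing O] [Field F0] [Field F] [Algebra O F0] [IsFractionRing O F0]
    [Algebra F0 F] [Algebra O F] [IsScalarTower O F0 F] [FiniteDimensional F0 F] [CharZero F0]
    [Field K1] [Field E] [Algebra K1 E] {ϖ : ℕ}
    (hmax : IsLocalRing.maximalIdeal O = Ideal.span {(ϖ : O)}) (hϖ : (ϖ : O) ≠ 0)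
    (ρ : integralClosure O F →+* E) (hρ : ρ (ϖ : integralClosure O F) = 0)
    (hbase : ∀ c : O, ∃ x : K1, algebraMap K1 E x = ρ (algebraMap O (integralClosure O F) c))
    (hsurj : ∀ x : K1, ∃ c : O, algebraMap K1 E x = ρ (algebraMap O (integralClosure O F) c))
    (hlow : ∀ R0 : IntermediateField K1 E, FiniteDimensional K1 R0 → (∀ y, ρ y ∈ R0) →
      Module.finrank F0 F ≤ Module.finrank K1 R0) :
    (Ideal.span {(ϖ : integralClosure O F)}).IsMaximal := by
  classical
  have : IsDedekindDomain (integralClosure O F) := integralClosure.isDedekindDomain O F0 F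
  have : Module.Finite O (integralClosure O F) :=
    IsIntegralClosure.finite O F0 F (integralClosure O F)
  have hOF : Function.Injective (algebraMap O F) := by
    rw [IsScalarTower.algebraMap_eq O F0 F]
    exact (algebraMap F0 F).injective.comp (IsFractionRing.injective O F0)
  have : Module.IsTorsionFree O F := Module.IsTorsionFree.of_smul_eq_zero fun r x hrx => by
    rw [Algebra.smul_def, mul_eq_zero, map_eq_zero_iff _ hOF] at hrx
    exact hrx
  set Q := RingHom.ker ρ
  have : Q.IsPrime := RingHom.ker_isPrime _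
  have hmaxQ : Q.IsMaximal := by
    refine Ideal.isMaximal_of_isIntegral_of_isMaximal_comap (R := O) (S := integralClosure O F) Q ?_
    have hle : IsLocalRing.maximalIdeal O ≤ Q.comap (algebraMap O (integralClosure O F)) := by
      rw [hmax, Ideal.span_singleton_le_iff_mem, Ideal.mem_comap, map_natCast]
      exact hρ
    rw [← (IsLocalRing.maximalIdeal.isMaximal O).eq_of_le (Ideal.IsPrime.comap _).ne_top hle]
    exact IsLocalRing.maximalIdeal.isMaximal O
  have := liesOver_maximal (O := O) (S := integralClosure O F) Q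
  have := hmaxQ
  let := Ideal.Quotient.field (IsLocalRing.maximalIdeal O)
  let := Ideal.Quotient.field (R := (integralClosure O F)) Q
  have : Module.Finite (O ⧸ IsLocalRing.maximalIdeal O) ((integralClosure O F) ⧸ Q) :=
    Module.Finite.of_restrictScalars_finite O _ _
  let eQ : (integralClosure O F) ⧸ Q →+* E := RingHom.kerLift ρ
  have hcomp : ∀ c : O, eQ (algebraMap (O ⧸ IsLocalRing.maximalIdeal O) ((integralClosure O F) ⧸ Q)
      (Ideal.Quotient.mk _ c)) = ρ (algebraMap O (integralClosure O F) c) := fun c => by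
    rw [Ideal.Quotient.algebraMap_mk_of_liesOver]
    exact RingHom.kerLift_mk _ _
  choose i0 hi0 using hbase
  have hi0' : ∀ c : O ⧸ IsLocalRing.maximalIdeal O, ∃ x : K1,
      algebraMap K1 E x = eQ (algebraMap _ ((integralClosure O F) ⧸ Q) c) := fun c => by
    obtain ⟨c, rfl⟩ := Ideal.Quotient.mk_surjective c
    exact ⟨i0 c, by rw [hcomp, hi0]⟩
  choose f hf using hi0'
  let fH : O ⧸ IsLocalRing.maximalIdeal O →+* K1 :=
    { toFun := f
      map_one' := (algebraMap K1 E).injective (by rw [hf, map_one, map_one, map_one])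
      map_zero' := (algebraMap K1 E).injective (by rw [hf, map_zero, map_zero, map_zero])
      map_mul' := fun a b => (algebraMap K1 E).injective (by
        rw [map_mul (algebraMap K1 E), hf, hf, hf, map_mul, map_mul])
      map_add' := fun a b => (algebraMap K1 E).injective (by
        rw [RingHom.map_add (algebraMap K1 E), hf, hf, hf, RingHom.map_add, RingHom.map_add]) }
  let i : O ⧸ IsLocalRing.maximalIdeal O ≃+* K1 := RingEquiv.ofBijective fH ⟨fH.injective,
    fun x => by
      obtain ⟨c, hc⟩ := hsurj x
      exact ⟨Ideal.Quotient.mk _ c, (algebraMap K1 E).injective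
        ((hf _).trans ((hcomp c).trans hc.symm))⟩⟩
  let R0 : IntermediateField K1 E :=
    { eQ.fieldRange with
      algebraMap_mem' := fun x => by
        obtain ⟨c, hc⟩ := hsurj x
        exact ⟨Ideal.Quotient.mk Q (algebraMap O (integralClosure O F) c),
            (RingHom.kerLift_mk _ _).trans hc.symm⟩ }
  let j0 : (integralClosure O F) ⧸ Q →+* R0 := eQ.codRestrict R0.toSubfield fun x => ⟨x, rfl⟩
  let j : (integralClosure O F) ⧸ Q ≃+* R0 := RingEquiv.ofBijective j0
    ⟨j0.injective, fun y => by obtain ⟨x, hx⟩ := y.2; exact ⟨x, Subtype.ext hx⟩⟩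
  have hfr : Module.finrank (O ⧸ IsLocalRing.maximalIdeal O) ((integralClosure O F) ⧸ Q) =
      Module.finrank K1 R0 :=
    Algebra.finrank_eq_of_equiv_equiv i j (RingHom.ext fun x => Subtype.ext (hf x))
  have hfin : FiniteDimensional K1 R0 :=
    FiniteDimensional.of_finrank_pos (hfr ▸ Module.finrank_pos)
  have hl := hlow R0 hfin fun y => ⟨Ideal.Quotient.mk Q y, RingHom.kerLift_mk _ _⟩
  rw [← hfr] at hl
  obtain ⟨-, hspan, -⟩ := exhaust_primes hmax hϖ (fun _ : Unit => Q) (fun _ => hmaxQ)
    (fun _ _ _ => rfl) (fun _ => 1) (fun _ => Module.finrank F0 F)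
    (fun _ => by rw [pow_one, map_natCast]; exact hρ) (fun _ => one_pos)
    (fun _ => Module.finrank_pos) (fun _ => hl) (by
      simp [IsIntegralClosure.rank O F0 F (integralClosure O F)])
  simp only [map_natCast, Finset.univ_unique, Finset.prod_singleton, pow_one] at hspan
  rw [hspan]
  exact hmaxQ

omit hq in
/-- `ψ(M) ≤ deg P · [R₀ : k(t)]` for a field containing `k(t)` and the field of level `M`. -/
theorem psi_le_of_mem {κ : Type} [Field κ] [IsAlgClosed κ] {M : ℕ} (hM : (M : κ) ≠ 0)
    (t : LaurentSeries κ) (ht : t = coeffMap (Int.castRingHom κ) D.t)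
    (R0 : IntermediateField κ⟮t⟯ (LaurentSeries κ)) [FiniteDimensional κ⟮t⟯ R0]
    (hj : ∀ d : ℕ, d ≠ 0 → d ∣ M → jv (1 : κˣ) d ∈ R0) :
    Igusa.psi M ≤ D.P.natDegree * Module.finrank κ⟮t⟯ R0 := by
  set J := κ⟮jv (1 : κˣ) 1⟯
  have haev : ∀ P : Polynomial κ, aeval t P = evalAt t P := fun P => RingHom.congr_fun
    (Polynomial.ringHom_ext (f := (aeval t).toRingHom) (g := evalAt t)
      (fun c => by simp [evalAt, algebraMap_laurentSeries_eq_single]) (by simp [evalAt])) P
  have hint : ∀ P : ℤ[X], P.eval₂ (Int.castRingHom _) t = aeval t (P.map (Int.castRingHom κ)) :=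
    fun P => by rw [aeval_def, eval₂_map]; congr 1; exact RingHom.ext_int _ _
  have hj1 : jqModC κ = jv (1 : κˣ) 1 := by rw [Igusa.jv_one_eq_qExpand, qExpand_one_apply]
  have hrel := D.jrel_eval₂ (R := κ)
  rw [← ht, hj1, hint, hint] at hrel
  have hG : aeval t (D.G.map (Int.castRingHom κ)) ≠ 0 := fun h => by
    rw [haev] at h
    subst ht
    exact (D.G_monic.map _).ne_zero
      ((D.unitPole_t.map _).evalAt_injective (h.trans (map_zero _).symm))
  have hjt : J ≤ κ⟮t⟯ := by
    rw [adjoin_simple_le_iff, eq_div_of_mul_eq hG hrel]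
    exact div_mem (algebra_adjoin_le_adjoin κ _ (aeval_mem_adjoin_singleton κ _))
      (algebra_adjoin_le_adjoin κ _ (aeval_mem_adjoin_singleton κ _))
  -- `t` has degree at most `deg P` over `κ(j)`
  let jJ : J := ⟨_, mem_adjoin_simple_self κ _⟩
  set p : Polynomial J := D.P.map (Int.castRingHom J) -
    Polynomial.C jJ * D.G.map (Int.castRingHom J) with hp
  have hdegp : p.natDegree = D.P.natDegree ∧ p.Monic := by
    have hlt : (Polynomial.C jJ * D.G.map (Int.castRingHom J)).degree <
        (D.P.map (Int.castRingHom J)).degree := by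
      refine lt_of_le_of_lt (degree_mul_le _ _) (lt_of_le_of_lt (add_le_add degree_C_le le_rfl) ?_)
      rw [zero_add, degree_eq_natDegree (D.G_monic.map _).ne_zero,
        degree_eq_natDegree (D.P_monic.map _).ne_zero, D.G_monic.natDegree_map,
        D.P_monic.natDegree_map]
      exact WithBot.coe_lt_coe.mpr D.G_degree
    refine ⟨?_, (D.P_monic.map _).sub_of_left hlt⟩
    rw [hp, natDegree_eq_of_degree_eq (degree_sub_eq_left_of_degree_lt hlt),
      D.P_monic.natDegree_map]
  have hroot : aeval t p = 0 := by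
    have e : ∀ P : ℤ[X], aeval t (P.map (Int.castRingHom J)) =
        aeval t (P.map (Int.castRingHom κ)) :=
      fun P => by
        rw [aeval_def, aeval_def, eval₂_map, eval₂_map]; congr 1; exact RingHom.ext_int _ _
    rw [hp, map_sub, map_mul, e, e, aeval_C, show algebraMap J (LaurentSeries κ) jJ =
      jv (1 : κˣ) 1 from rfl, hrel, sub_self]
  have htint : IsIntegral J t := ⟨p, hdegp.2, hroot⟩
  have hmax : J ⊔ κ⟮t⟯ = κ⟮t⟯ := sup_eq_right.mpr hjt
  have htj : relfinrank J κ⟮t⟯ ≤ D.P.natDegree := by
    rw [← hmax, Igusa.relfinrank_adjoin_simple J htint, ← hdegp.1]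
    exact natDegree_le_of_dvd (minpoly.dvd _ _ hroot) hdegp.2.ne_zero
  have htj0 : 0 < relfinrank J κ⟮t⟯ := by
    rw [← hmax, Igusa.relfinrank_adjoin_simple J htint]; exact minpoly.natDegree_pos htint
  -- the compositum
  set Z := κ⟮t⟯ ⊔ modularFunctionFieldFullC κ M
  have htZ : κ⟮t⟯ ≤ Z := le_sup_left
  have hfZ : modularFunctionFieldFullC κ M ≤ Z := le_sup_right
  have hZR : Z ≤ restrictScalars κ R0 :=
    sup_le (fun x hx => R0.algebraMap_mem ⟨x, hx⟩) (Igusa.full_le_iff.mpr hj)
  have hle : extendScalars htZ ≤ R0 := fun x hx => hZR hx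
  have : FiniteDimensional κ⟮t⟯ (extendScalars htZ) :=
    Module.Finite.of_injective (IntermediateField.inclusion hle).toLinearMap
      (IntermediateField.inclusion hle).injective
  have hpos : 0 < relfinrank κ⟮t⟯ Z := by
    rw [relfinrank_eq_finrank_of_le htZ]; exact Module.finrank_pos
  have hbound : relfinrank κ⟮t⟯ Z ≤ Module.finrank κ⟮t⟯ R0 := by
    rw [relfinrank_eq_finrank_of_le htZ]
    exact LinearMap.finrank_le_finrank_of_injective
      (f := (IntermediateField.inclusion hle).toLinearMap)
      (IntermediateField.inclusion hle).injective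
  have h1 := relfinrank_mul_relfinrank hjt htZ
  have h2 := relfinrank_mul_relfinrank (Igusa.adjoin_j_le_full (N := M)) hfZ
  rw [Igusa.relfinrank_full M hM, ← h1] at h2
  have hc : 0 < relfinrank (modularFunctionFieldFullC κ M) Z := by
    rcases Nat.eq_zero_or_pos (relfinrank (modularFunctionFieldFullC κ M) Z) with h0 | h0
    · rw [h0, mul_zero] at h2
      exact absurd h2.symm (Nat.mul_pos htj0 hpos).ne'
    · exact h0
  calc Igusa.psi M ≤ Igusa.psi M * relfinrank (modularFunctionFieldFullC κ M) Z :=
        Nat.le_mul_of_pos_right _ hc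
    _ = relfinrank J κ⟮t⟯ * relfinrank κ⟮t⟯ Z := h2
    _ ≤ _ := Nat.mul_le_mul htj hbound

namespace HauptData

omit [CharZero W] [IsAlgClosed k] hq in
/-- `j(q^d)` is integral over the local ring at the Gauss prime. -/
theorem isIntegral_jv_mid {d : ℕ}
    (hd0 : d ≠ 0) (hd : d ∣ M) :
    letI := D.gaussAlgebra W L M hn
    IsIntegral (GaussLoc W) (⟨jv (1 : Lˣ) d, jv_mem_X0Field L M hd0 hd⟩ : Hecke.X0Field L M) := by
  let := D.gaussAlgebra W L M hn
  let := D.midAlgebra W L M hn
  have : IsScalarTower W[X] (GaussLoc W) ↥(Hecke.X0Field L M) :=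
    IsScalarTower.of_algebraMap_eq fun x =>
      (IsLocalization.lift_eq (M := (gaussPrime W).primeCompl) (D.isUnit_midEval W L M hn) x).symm
  set v : ↥(Hecke.X0Field L M) →+* LaurentSeries L := (Hecke.X0Field L M).val.toRingHom
  set g : (GaussLoc W) →+* LaurentSeries L := v.comp (algebraMap (GaussLoc W) ↥(Hecke.X0Field L M))
  have hginj : Function.Injective g := by
    refine v.injective.comp ((injective_iff_map_eq_zero _).mpr fun c hc => ?_)
    obtain ⟨P, s, rfl⟩ := IsLocalization.exists_mk'_eq (gaussPrime W).primeCompl c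
    have h := congrArg (algebraMap (GaussLoc W) ↥(Hecke.X0Field L M))
        (IsLocalization.mk'_spec (GaussLoc W) P s)
    rw [map_mul, hc, zero_mul, ← IsScalarTower.algebraMap_apply, eq_comm,
      map_eq_zero_iff (algebraMap W[X] ↥(Hecke.X0Field L M)) (D.midEval_injective W L M hn)] at h
    rw [h, IsLocalization.mk'_zero]
  have hgP : ∀ P : ℤ[X], g (algebraMap W[X] (GaussLoc W) (P.map (Int.castRingHom W))) =
      P.eval₂ (Int.castRingHom _) (D.tSer L) := fun P => by
    show v (algebraMap (GaussLoc W) ↥(Hecke.X0Field L M) _) = _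
    rw [← IsScalarTower.algebraMap_apply, D.eval₂_int_eq L,
      ← RingHom.ext_int ((algebraMap W L).comp (Int.castRingHom W)) (Int.castRingHom L),
      ← Polynomial.map_map]
    exact D.coe_midEval W L M hn _
  have hG : D.G.map (Int.castRingHom W) ∈ (gaussPrime W).primeCompl := fun h => by
    have h' := (mem_gaussPrime_iff _).mp h
    rw [Polynomial.map_map] at h'
    exact (D.G_monic.map _).ne_zero h'
  have hj : jqModC L ∈ g.range := by
    refine ⟨IsLocalization.mk' (GaussLoc W) (D.P.map (Int.castRingHom W)) ⟨_, hG⟩, ?_⟩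
    have h := congrArg g (IsLocalization.mk'_spec (GaussLoc W) (D.P.map (Int.castRingHom W))
      (⟨_, hG⟩ : (gaussPrime W).primeCompl))
    rw [map_mul, hgP, hgP] at h
    refine mul_right_cancel₀ (D.G_tSer_ne_zero L) ?_
    rw [h]
    exact (D.jrel_eval₂ (R := L)).symm
  let A0 := Algebra.adjoin ℤ ({jv (1 : ℚˣ) 1} : Set (LaurentSeries ℚ))
  have hmem : ∀ a : A0, coeffEmb L (a : LaurentSeries ℚ) ∈ g.range := by
    rintro ⟨a, ha⟩
    induction ha using Algebra.adjoin_induction with
    | mem z hz =>
      rw [Set.mem_singleton_iff] at hz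
      subst hz
      convert hj
      rw [coeffEmb, Igusa.coeffMap_jv _ _ one_ne_zero, map_one, Igusa.jv_one_eq_qExpand,
        qExpand_one_apply]
    | algebraMap n => simp
    | add x y _ _ hx hy => rw [map_add]; exact add_mem hx hy
    | mul x y _ _ hx hy => rw [map_mul]; exact mul_mem hx hy
  let eg : (GaussLoc W) ≃+* g.range :=
    RingEquiv.ofBijective g.rangeRestrict ⟨fun x y h =>
        hginj (congrArg (fun z : g.range => (z : LaurentSeries L)) h),
      g.rangeRestrict_surjective⟩
  let φ : A0 →+* (GaussLoc W) := eg.symm.toRingHom.comp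
    (((coeffEmb L).comp A0.val.toRingHom).codRestrict g.range hmem)
  have hφ : ∀ a, g (φ a) = coeffEmb L (a : LaurentSeries ℚ) := fun a =>
    congrArg Subtype.val (eg.apply_symm_apply _)
  obtain ⟨P, hP, hPd⟩ := Igusa.isIntegral_jv (d := d) hd0
  refine ⟨P.map φ, hP.map _, v.injective ?_⟩
  rw [map_zero, eval₂_map, hom_eval₂, ← RingHom.comp_assoc, show g.comp φ =
    (coeffEmb L).comp (algebraMap A0 (LaurentSeries ℚ)) from RingHom.ext hφ]
  have h := congrArg (coeffEmb L) hPd
  rw [map_zero, hom_eval₂] at h
  have he : coeffEmb L (jv (1 : ℚˣ) d) = jv (1 : Lˣ) d := by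
    rw [coeffEmb, Igusa.coeffMap_jv _ _ hd0, map_one]
  rw [he] at h
  exact h

omit [CharZero W] [IsAlgClosed k] in
/-- `T` is residually no `q`-th power. -/
theorem not_pow_mid (hmax : IsLocalRing.maximalIdeal W = Ideal.span {(q : W)}) :
    letI := D.gaussAlgebra W L M hn
    letI := D.midAlgebra W L M hn
    ∀ y T : integralClosure (GaussLoc W) (Hecke.X0Field L M),
      (T : Hecke.X0Field L M) = algebraMap W[X] (Hecke.X0Field L M) X →
        ¬ (q : integralClosure (GaussLoc W) (Hecke.X0Field L M)) ∣ y ^ q - T := by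
  let := D.gaussAlgebra W L M hn
  let := D.midAlgebra W L M hn
  obtain ⟨R⟩ := D.nonempty_midResidue W L M hn
  rintro y T hT ⟨z, hz⟩
  have : CharP k q := (CharP.charP_iff_prime_eq_zero hq.out).mpr (residue_q_eq_zero hmax)
  have hq0 : (q : LaurentSeries k) = 0 := by
    rw [← map_natCast (algebraMap k (LaurentSeries k)), CharP.cast_eq_zero, map_zero]
  have h1 : R.res (y ^ q) = R.res T := by
    have hz' : y ^ q = T + (q : integralClosure (GaussLoc W) (Hecke.X0Field L M)) * z := by
      linear_combination hz
    rw [hz', RingHom.map_add, RingHom.map_mul, map_natCast, hq0, zero_mul, add_zero]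
  rw [map_pow,
    R.res_series T (coeffMap (Int.castRingHom W) D.t) (by
      rw [hT, coeffMap_coeffMap,
        RingHom.ext_int ((algebraMap W L).comp (Int.castRingHom W)) (Int.castRingHom L)]
      exact congrArg Subtype.val (D.midEval_X W L M hn)),
    coeffMap_coeffMap,
    RingHom.ext_int ((IsLocalRing.residue W).comp (Int.castRingHom W)) (Int.castRingHom k)] at h1
  have hord := congrArg HahnSeries.order h1
  rw [HahnSeries.order_pow, (D.unitPole_t.map (Int.castRingHom k)).order_eq, nsmul_eq_mul] at hord
  have := Int.eq_one_of_mul_eq_one_right (a := (q : ℤ)) (b := -(R.res y).order)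
    (Int.natCast_nonneg q) (by linarith)
  exact hq.out.ne_one (by exact_mod_cast this)

/-- `q` generates the only prime of the middle field over the Gauss prime. -/
theorem inert_mid (hmax : IsLocalRing.maximalIdeal W = Ideal.span {(q : W)})
    (hdeg : D.P.natDegree = Igusa.psi n0) (hqM : ¬ q ∣ M) :
    letI := D.gaussAlgebra W L M hn
    (Ideal.span {(q : integralClosure (GaussLoc W) (Hecke.X0Field L M))}).IsMaximal := by
  classical
  let := D.gaussAlgebra W L M hn
  let := D.midAlgebra W L M hn
  let := D.fracAlgebra W L M hn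
  have : IsScalarTower W[X] (GaussLoc W) (Hecke.X0Field L M) :=
    IsScalarTower.of_algebraMap_eq fun x =>
      (IsLocalization.lift_eq (M := (gaussPrime W).primeCompl) (D.isUnit_midEval W L M hn) x).symm
  have : IsFractionRing (GaussLoc W) (FractionRing W[X]) :=
    IsFractionRing.isFractionRing_of_isDomain_of_isLocalization (gaussPrime W).primeCompl
      (GaussLoc W) (FractionRing W[X])
  have h0 : ∀ x : W[X], algebraMap (FractionRing W[X]) (Hecke.X0Field L M)
      (algebraMap W[X] (FractionRing W[X]) x) = algebraMap W[X] (Hecke.X0Field L M) x :=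
    fun x => IsFractionRing.lift_algebraMap _ x
  have : IsScalarTower (GaussLoc W) (FractionRing W[X]) (Hecke.X0Field L M) :=
    IsScalarTower.of_algebraMap_eq' (IsLocalization.ringHom_ext (gaussPrime W).primeCompl
      (RingHom.ext fun x => by
        simp only [RingHom.comp_apply, ← IsScalarTower.algebraMap_apply W[X] (GaussLoc W) _, h0]))
  have := D.finite_mid W L M hn
  have : CharZero (FractionRing W[X]) := charZero_of_injective_ringHom
    (f := (algebraMap W[X] (FractionRing W[X])).comp C)
    ((IsFractionRing.injective W[X] (FractionRing W[X])).comp C_injective)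
  have := isDiscreteValuationRing_gaussLoc (W := W) hq.out hmax
  obtain ⟨R⟩ := D.nonempty_midResidue W L M hn
  have : CharP k q := (CharP.charP_iff_prime_eq_zero hq.out).mpr (residue_q_eq_zero hmax)
  have hM : (M : k) ≠ 0 := by rwa [Ne, CharP.cast_eq_zero_iff k q]
  set t : LaurentSeries k := coeffMap (Int.castRingHom k) D.t with ht
  have haev : ∀ P : k[X], aeval t P = evalAt t P := fun P => RingHom.congr_fun
    (Polynomial.ringHom_ext (f := (aeval t).toRingHom) (g := evalAt t)
      (fun c => by simp [evalAt, algebraMap_laurentSeries_eq_single]) (by simp [evalAt])) P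
  have hres : ∀ P : W[X], R.res (algebraMap (GaussLoc W) _ (algebraMap W[X] (GaussLoc W) P)) =
      evalAt t (P.map (IsLocalRing.residue W)) := fun P => by
    rw [R.res_series _ (evalAt (coeffMap (Int.castRingHom W) D.t) P) ?_, Igusa.coeffMap_evalAt,
      coeffMap_coeffMap,
      RingHom.ext_int ((IsLocalRing.residue W).comp (Int.castRingHom W)) (Int.castRingHom k)]
    show ((algebraMap (GaussLoc W) (Hecke.X0Field L M) (algebraMap W[X] (GaussLoc W) P) :
      Hecke.X0Field L M) : LaurentSeries L) = _
    rw [← IsScalarTower.algebraMap_apply W[X] (GaussLoc W) (Hecke.X0Field L M),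
      Igusa.coeffMap_evalAt, coeffMap_coeffMap,
      RingHom.ext_int ((algebraMap W L).comp (Int.castRingHom W)) (Int.castRingHom L),
      show evalAt (coeffMap (Int.castRingHom L) D.t) (P.map (algebraMap W L)) =
        aeval (D.tSer L) (P.map (algebraMap W L)) from (D.aeval_tSer L _).symm]
    exact D.coe_midEval W L M hn P
  refine isMaximal_span_of_residual (F0 := FractionRing W[X]) (K1 := k⟮t⟯) (E := LaurentSeries k)
    (maximalIdeal_gaussLoc hmax) (natCast_gaussLoc_ne_zero hq.out) R.res ?_ (fun c => ?_)
    (fun x => ?_) (fun R0 hfin hmem => ?_)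
  · rw [map_natCast, ← map_natCast (algebraMap k (LaurentSeries k)), CharP.cast_eq_zero, map_zero]
  · obtain ⟨P, s, rfl⟩ := IsLocalization.exists_mk'_eq (gaussPrime W).primeCompl c
    have hne : evalAt t ((s : W[X]).map (IsLocalRing.residue W)) ≠ 0 := fun h => s.2 (by
      show (s : W[X]) ∈ gaussPrime W
      rw [mem_gaussPrime_iff]
      exact (D.unitPole_t.map _).evalAt_injective (h.trans (map_zero _).symm))
    have h := congrArg (fun x => R.res (algebraMap (GaussLoc W) _ x))
      (IsLocalization.mk'_spec (GaussLoc W) P s)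
    simp only [map_mul, hres] at h
    refine ⟨⟨R.res (algebraMap (GaussLoc W) _ (IsLocalization.mk' (GaussLoc W) P s)), ?_⟩, rfl⟩
    rw [eq_div_of_mul_eq hne h, ← haev, ← haev]
    exact div_mem (algebra_adjoin_le_adjoin k _ (aeval_mem_adjoin_singleton k _))
      (algebra_adjoin_le_adjoin k _ (aeval_mem_adjoin_singleton k _))
  · obtain ⟨P, Q, hPQ⟩ := (mem_adjoin_simple_iff k (x : LaurentSeries k)).mp x.2
    by_cases hQ : Q = 0
    · exact ⟨0, by simp only [map_zero]; show (x : LaurentSeries k) = 0; rw [hPQ, hQ]; simp⟩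
    obtain ⟨P', rfl⟩ := Polynomial.map_surjective _ IsLocalRing.residue_surjective P
    obtain ⟨Q', rfl⟩ := Polynomial.map_surjective _ IsLocalRing.residue_surjective Q
    have hQ' : Q' ∈ (gaussPrime W).primeCompl := fun h => hQ ((mem_gaussPrime_iff _).mp h)
    refine ⟨IsLocalization.mk' _ P' ⟨Q', hQ'⟩, ?_⟩
    have hne : evalAt t (Q'.map (IsLocalRing.residue W)) ≠ 0 := fun h => hQ
      ((D.unitPole_t.map _).evalAt_injective (h.trans (map_zero _).symm))
    have h := congrArg (fun x => R.res (algebraMap (GaussLoc W) _ x))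
      (IsLocalization.mk'_spec (GaussLoc W) P' (⟨Q', hQ'⟩ : (gaussPrime W).primeCompl))
    simp only [map_mul, hres] at h
    rw [eq_div_of_mul_eq hne h, ← haev, ← haev]
    exact hPQ
  · refine Nat.le_of_mul_le_mul_left ?_ (Igusa.psi_pos n0)
    rw [D.finrank_mid W L M hn, ← hdeg]
    refine psi_le_of_mem D hM t ht R0 fun d hd0 hd => ?_
    have hel := D.isIntegral_jv_mid W L M hn hd0 hd
    have h := hmem ⟨_, hel⟩
    rw [R.res_series ⟨_, hel⟩ (jv (1 : Wˣ) d) (by rw [Igusa.coeffMap_jv _ _ hd0, map_one]),
      Igusa.coeffMap_jv _ _ hd0, map_one] at h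
    exact h

end HauptData

end Fermat.Agent.SquareLevel
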