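import Fermat.Agent.SquareLevel.Tower.Inert

/-!
# The tower
-/

noncomputable section

open Polynomial IntermediateField ModularCurve AlgebraicCurve
open Fermat.Agent.Igusa (jv evalAt)

namespace Fermat.Agent.SquareLevel

variable {q n0 : ℕ} [hq : Fact q.Prime] [NeZero q] [NeZero n0] (D : HauptData q n0)
variable (W : Type) [CommRing W] [IsDomain W] [IsDiscreteValuationRing W] [CharZero W]
  [IsAlgClosed (IsLocalRing.ResidueField W)]
  (L : Type) [Field L] [Algebra W L] [IsFractionRing W L]
  [Algebra ℚ L] (M : ℕ) [NeZero M] (hn : n0 ∣ M)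

/-- Generation over the image of an algebra map. -/
theorem adjoin_eq_top_along {L F K : Type*} [Field L] [Field F] [Field K]
    [Algebra L F] [Algebra L K]
    (φ : F →ₐ[L] K) (s : Set K)
    (h : ∀ G : IntermediateField L K, (∀ x, φ x ∈ G) → s ⊆ G → ⊤ ≤ G) :
    letI := algebraAlong φ
    IntermediateField.adjoin F s = ⊤ := by
  let := algebraAlong φ
  have := isScalarTower_along φ
  refine eq_top_iff.mpr fun x _ => ?_
  exact h ((IntermediateField.adjoin F s).restrictScalars L)
    (fun y => IntermediateField.algebraMap_mem (IntermediateField.adjoin F s) y)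
    (subset_adjoin F s) IntermediateField.mem_top

namespace HauptData

/-- The `F`-algebra `K`. -/
abbrev midTopAlgebra : Algebra (Hecke.X0Field L M) (Hecke.X0Field L (M * q * q)) :=
  algebraAlong (midHom q L M)

omit [IsDomain W] [IsDiscreteValuationRing W] [CharZero W]
  [IsAlgClosed (IsLocalRing.ResidueField W)] [IsFractionRing W L] hq in
theorem isScalarTower_top :
    letI := D.midAlgebra W L M hn
    letI := D.topAlgebra W L M hn
    letI := midTopAlgebra (q := q) L M
    IsScalarTower W[X] (Hecke.X0Field L M) (Hecke.X0Field L (M * q * q)) := by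
  let := D.midAlgebra W L M hn
  let := D.topAlgebra W L M hn
  let := midTopAlgebra (q := q) L M
  exact IsScalarTower.of_algebraMap_eq fun _ => rfl

omit [IsDiscreteValuationRing W] [CharZero W] [IsAlgClosed (IsLocalRing.ResidueField W)]
  [IsDomain W] [IsFractionRing W L] hq in
theorem aeval_phiOver {x : Hecke.X0Field L (M * q * q)}
    (h : D.Phi.eval₂ (eval₂RingHom (Int.castRingHom _) (qExpand L q (D.tSer L)))
      (x : LaurentSeries L) = 0) :
    letI := D.midAlgebra W L M hn
    letI := midTopAlgebra (q := q) L M
    aeval x (D.phiOver W (Hecke.X0Field L M)) = 0 := by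
  let := D.midAlgebra W L M hn
  let := midTopAlgebra (q := q) L M
  refine (Hecke.X0Field L (M * q * q)).val.toRingHom.injective ?_
  rw [map_zero, aeval_def, HauptData.phiOver, eval₂_map, hom_eval₂]
  refine Eq.trans (congrArg (fun f => D.Phi.eval₂ f (x : LaurentSeries L)) ?_) h
  refine Polynomial.ringHom_ext (fun c => ?_) ?_
  · simp
  · show ((midHom q L M (D.midEval W L M hn
        (mapRingHom (Int.castRingHom W) X)) : Hecke.X0Field L (M * q * q)) : LaurentSeries L) =
      eval₂RingHom (Int.castRingHom _) (qExpand L q (D.tSer L)) X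
    rw [coe_mapRingHom, Polynomial.map_X, D.midEval_X, coe_midHom]
    simp [HauptData.tMid]

omit hq in
theorem phi_eval₂_map {R : Type*} [CommRing R] (σ : LaurentSeries ℤ →+* R) (x y : LaurentSeries ℤ)
    (h : D.Phi.eval₂ (aeval x).toRingHom y = 0) :
    D.Phi.eval₂ (eval₂RingHom (Int.castRingHom _) (σ x)) (σ y) = 0 := by
  have h1 := congrArg σ h
  rw [map_zero, hom_eval₂] at h1
  refine Eq.trans (congrArg (fun f => D.Phi.eval₂ f (σ y)) ?_) h1
  exact Polynomial.ringHom_ext (fun c => by simp) (by simp)

/-- The tower has the degrees, generators and reduction required by the core. -/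
theorem isTower (hmax : IsLocalRing.maximalIdeal W = Ideal.span {(q : W)})
    (hdeg : D.P.natDegree = Igusa.psi n0) (hqM : ¬ q ∣ M) :
    letI := D.midAlgebra W L M hn
    letI := D.topAlgebra W L M hn
    letI := midTopAlgebra (q := q) L M
    haveI := D.isScalarTower_top W L M hn
    letI := D.gaussAlgebra W L M hn
    IsTower D W (Hecke.X0Field L M) (Hecke.X0Field L (M * q * q)) (D.aTop L M hn)
      (D.bTop L M hn) := by
  let := D.midAlgebra W L M hn
  let := D.topAlgebra W L M hn
  let := midTopAlgebra (q := q) L M
  have := D.isScalarTower_top W L M hn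
  let := D.gaussAlgebra W L M hn
  have := isScalarTower_along (midHom q L M)
  have hqq : ∀ u : LaurentSeries L, qExpand L q (qExpand L q u) = qExpand L (q * q) u :=
    fun u => qExpand_qExpand q q u
  refine ⟨?_, finrankAlong_midHom L M hqM, ?_, ?_, ?_, D.inert_mid W L M hn hmax hdeg hqM,
    D.not_pow_mid W L M hn hmax⟩
  · exact adjoin_eq_top_along (midHom q L M) _ fun G hG hs => top_le_of_mem D L M hn hqM G hG
      (hs (Set.mem_insert _ _)) (hs (Set.mem_insert_of_mem _ (Set.mem_singleton _)))
  · refine D.aeval_phiOver W L M hn ?_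
    have h := D.phi_eval₂_map ((qExpand L q).comp (coeffMap (Int.castRingHom L))) _ _ D.Phi_relation
    rw [RingHom.comp_apply, RingHom.comp_apply, coeffMap_qExpand] at h
    rw [D.coe_aTop]
    exact h
  · refine D.aeval_phiOver W L M hn ?_
    have h := D.phi_eval₂_map (coeffMap (Int.castRingHom L)) _ _ D.Phi_relation_symm
    rw [coeffMap_qExpand] at h
    exact h
  · intro e
    have h := congrArg (fun z : Hecke.X0Field L (M * q * q) => (z : LaurentSeries L)) e
    simp only [D.coe_aTop, hqq] at h
    change _ = D.tSer L at h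
    have h1 := congrArg (fun u : LaurentSeries L => u.coeff (-1)) h
    rw [show ((D.tSer L).coeff (-1)) = 1 from (D.unitPole_tSer L).coeff_neg_one,
      qExpand_coeff_of_not_dvd] at h1
    · exact zero_ne_one h1
    · intro hd
      have := Int.le_of_dvd one_pos (dvd_neg.mp hd)
      have := hq.out.two_le
      push_cast at *
      nlinarith

end HauptData

end Fermat.Agent.SquareLevel
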