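import Fermat.Agent.Hecke.BaseChange
import Fermat.Agent.SquareLevel.Tower.IsTower

/-!
# Norms and orders along the change of level `M₀ → M`

A function of level `M₀ q²` whose norms to level `M₀ q` are constants times `m`-th powers has norms
to `F(b)` and `F(a)` of the same shape.
-/

noncomputable section

open Polynomial IntermediateField ModularCurve AlgebraicCurve
open Fermat.Agent.Igusa (jv)

namespace Fermat.Agent.SquareLevel

variable {q n0 : ℕ} [hq : Fact q.Prime] [NeZero q] [NeZero n0] (D : HauptData q n0)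
variable (L : Type) [Field L] [Algebra ℚ L] {M₀ M : ℕ} [NeZero M₀] [NeZero M]

/-- The inclusion of the field of a level into that of a multiple. -/
def inclLevel {A B : ℕ} [NeZero A] (h : A ∣ B) [NeZero B] :
    Hecke.X0Field L A →ₐ[L] Hecke.X0Field L B :=
  IntermediateField.inclusion (IntermediateField.adjoin.mono L _ _
      (Set.image_mono (full_degeneracy_le h)))

theorem coe_inclLevel {A B : ℕ} [NeZero A] [NeZero B] (h : A ∣ B) (x : Hecke.X0Field L A) :
    (inclLevel L h x : LaurentSeries L) = x :=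
  IntermediateField.coe_inclusion _ x

/-- A map of modular curves sending `j` to `j(q^e)`, `e ∣ B`, has degree `ψ(B)/ψ(A)`. -/
theorem psi_mul_finrankAlong {A B : ℕ} [NeZero A] [NeZero B]
    (φ : Hecke.X0Field L A →ₐ[L] Hecke.X0Field L B) {e : ℕ} (he0 : e ≠ 0) (he : e ∣ B)
    (hφ : haveI := charZero_of_algebraRat L
      (φ (Hecke.jElt L A) : LaurentSeries L) = jv (1 : Lˣ) e) :
    Igusa.psi A * finrankAlong L φ = Igusa.psi B := by
  have := charZero_of_algebraRat L
  have h := Hecke.finrank_adjoin_apply φ (Hecke.jElt L A)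
  rw [Hecke.finrank_over_j] at h
  have e' : L⟮φ (Hecke.jElt L A)⟯ = L⟮jv (1 : Lˣ) e⟯.comap (Hecke.X0Field L B).val := by
    refine SetLike.ext fun y => ?_
    rw [← IntermediateField.mem_lift, IntermediateField.lift_adjoin_simple, hφ]
    rfl
  rw [e', IntermediateField.finrank_comap, IntermediateField.fieldRange_val,
    relfinrank_jv L _ he0 he] at h
  rw [h, ← Igusa.natCard_coset_eq_psi A]
  rfl

theorem finiteAlong_of_jv {A B : ℕ} [NeZero A] [NeZero B]
    (φ : Hecke.X0Field L A →ₐ[L] Hecke.X0Field L B) {e : ℕ} (he0 : e ≠ 0) (he : e ∣ B)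
    (hφ : haveI := charZero_of_algebraRat L
      (φ (Hecke.jElt L A) : LaurentSeries L) = jv (1 : Lˣ) e) :
    FiniteAlong L φ := by
  have h := psi_mul_finrankAlong L φ he0 he hφ
  let := algebraAlong φ
  refine Module.finite_of_finrank_pos (Nat.pos_of_ne_zero fun h0 => (Igusa.psi_pos B).ne' ?_)
  rw [← h, show finrankAlong L φ = 0 from h0, mul_zero]

theorem coe_jElt (A : ℕ) :
    haveI := charZero_of_algebraRat L
    (Hecke.jElt L A : LaurentSeries L) = jv (1 : Lˣ) 1 := by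
  have := charZero_of_algebraRat L
  rw [Igusa.jv_one_eq_qExpand, qExpand_one_apply]
  rfl

omit [NeZero q] in
theorem psi_mul_self {A : ℕ} (hA : A ≠ 0) (hqA : q ∣ A) : Igusa.psi (A * q) = Igusa.psi A * q := by
  rw [Igusa.psi_mul_prime hA hq.out, if_pos hqA]

theorem finrankAlong_alpha_eq (A : ℕ) [NeZero A] (hqA : q ∣ A) :
    finrankAlong L (heckeAlphaBar L A q) = q ∧ FiniteAlong L (heckeAlphaBar L A q) := by
  have : NeZero (A * q) := ⟨mul_ne_zero (NeZero.ne A) hq.out.ne_zero⟩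
  have hφ : haveI := charZero_of_algebraRat L
      (heckeAlphaBar L A q (Hecke.jElt L A) : LaurentSeries L) = jv (1 : Lˣ) 1 := by
    rw [coe_heckeAlphaBar]; exact coe_jElt L A
  refine ⟨?_, finiteAlong_of_jv L _ one_ne_zero (one_dvd _) hφ⟩
  have h := psi_mul_finrankAlong L _ one_ne_zero (one_dvd _) hφ
  rw [psi_mul_self (NeZero.ne A) hqA] at h
  exact Nat.eq_of_mul_eq_mul_left (Igusa.psi_pos A) h

theorem finrankAlong_beta_eq (A : ℕ) [NeZero A] (hqA : q ∣ A) :
    finrankAlong L (heckeBetaBar L A q) = q ∧ FiniteAlong L (heckeBetaBar L A q) := by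
  have : NeZero (A * q) := ⟨mul_ne_zero (NeZero.ne A) hq.out.ne_zero⟩
  have hφ : haveI := charZero_of_algebraRat L
      (heckeBetaBar L A q (Hecke.jElt L A) : LaurentSeries L) = jv (1 : Lˣ) q := by
    rw [coe_heckeBetaBar, coe_jElt, qExpand_jv q one_ne_zero, mul_one]
  refine ⟨?_, finiteAlong_of_jv L _ hq.out.ne_zero (dvd_mul_left q A) hφ⟩
  have h := psi_mul_finrankAlong L _ hq.out.ne_zero (dvd_mul_left q A) hφ
  rw [psi_mul_self (NeZero.ne A) hqA] at h
  exact Nat.eq_of_mul_eq_mul_left (Igusa.psi_pos A) h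

theorem ne_zero_of_dvd_level {d : ℕ} (hd : d ∣ M) : d ≠ 0 :=
  fun h => NeZero.ne M (Nat.eq_zero_of_zero_dvd (h ▸ hd))

omit [NeZero q] in
/-- The constants, `j`, `j(q^(q²))` and the `j(q^(dq))`, `d ∣ M`, generate the field of
level `M q²`. -/
theorem closure_eq_top_top (hqM : ¬ q ∣ M)
    (S : Subfield (Hecke.X0Field L (M * q * q)))
    (hL : ∀ c : L, algebraMap L (Hecke.X0Field L (M * q * q)) c ∈ S)
    (h : ∀ x : Hecke.X0Field L (M * q * q),
      ((∃ d, d ∣ M ∧ (x : LaurentSeries L) = jv (1 : Lˣ) (d * q)) ∨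
        (x : LaurentSeries L) = jv (1 : Lˣ) 1 ∨
        (x : LaurentSeries L) = jv (1 : Lˣ) (q * q)) → x ∈ S) :
    S = ⊤ := by
  have := charZero_of_algebraRat L
  have hq0 := hq.out.ne_zero
  have : NeZero (M * q * q) := ⟨mul_ne_zero (mul_ne_zero (NeZero.ne M) hq0) hq0⟩
  let G : IntermediateField L (Hecke.X0Field L (M * q * q)) := { S with algebraMap_mem' := hL }
  have key : modularFunctionFieldFullC L (M * q * q) ≤ G.map (Hecke.X0Field L (M * q * q)).val := by
    refine full_mul_sq_le_any (NeZero.ne M) hqM (fun d hd => ?_) ?_ ?_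
    · exact ⟨⟨_, jv_mem_X0Field L _ (mul_ne_zero (ne_zero_of_dvd_level hd) hq0)
        ((Nat.mul_dvd_mul_right hd q).mul_right q)⟩, h _ (Or.inl ⟨d, hd, rfl⟩), rfl⟩
    · exact ⟨⟨_, jv_mem_X0Field L _ one_ne_zero (one_dvd _)⟩, h _ (Or.inr (Or.inl rfl)), rfl⟩
    · exact ⟨⟨_, jv_mem_X0Field L _ (mul_ne_zero hq0 hq0)
          (by rw [mul_assoc]; exact dvd_mul_left _ _)⟩,
        h _ (Or.inr (Or.inr rfl)), rfl⟩
  refine eq_top_iff.mpr fun x _ => ?_
  obtain ⟨y, hy, hyx⟩ := (X0Field_le_iff L (M * q * q)).mpr key x.2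
  exact (Subtype.ext hyx : y = x) ▸ hy

variable (hMM : M₀ ∣ M)

/-- The norm along `α` commutes with the inclusions of levels. -/
theorem norm_square_alpha (hqM : ¬ q ∣ M) (f : Hecke.X0Field L (M₀ * q * q)) :
    haveI : NeZero (M * q) := ⟨mul_ne_zero (NeZero.ne M) hq.out.ne_zero⟩
    haveI : NeZero (M * q * q) := ⟨mul_ne_zero (NeZero.ne (M * q)) hq.out.ne_zero⟩
    inclLevel L (Nat.mul_dvd_mul_right hMM q) (normAlong (heckeAlphaBar L (M₀ * q) q) f) =
      normAlong (heckeAlphaBar L (M * q) q)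
        (inclLevel L (Nat.mul_dvd_mul_right (Nat.mul_dvd_mul_right hMM q) q) f) := by
  have hq0 := hq.out.ne_zero
  have : NeZero (M₀ * q) := ⟨mul_ne_zero (NeZero.ne M₀) hq0⟩
  have : NeZero (M * q) := ⟨mul_ne_zero (NeZero.ne M) hq0⟩
  have : NeZero (M * q * q) := ⟨mul_ne_zero (NeZero.ne (M * q)) hq0⟩
  obtain ⟨hdA, hfA⟩ := finrankAlong_alpha_eq (q := q) L (M * q) (dvd_mul_left q M)
  obtain ⟨hdα, hfα⟩ := finrankAlong_alpha_eq (q := q) L (M₀ * q) (dvd_mul_left q M₀)
  refine Hecke.normAlong_baseChange ?_ hfα hfA (hdA.trans hdα.symm) ?_ f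
  · exact AlgHom.ext fun x => Subtype.ext (by simp [coe_inclLevel])
  · refine closure_eq_top_top L hqM _ (fun c => Subfield.subset_closure
      (Or.inl ⟨algebraMap L _ c, AlgHom.commutes _ c⟩)) fun x hx => ?_
    rcases hx with ⟨d, hd, hx⟩ | hx | hx
    · refine Subfield.subset_closure (Or.inl ⟨⟨_, jv_mem_X0Field L _
        (mul_ne_zero (ne_zero_of_dvd_level hd) hq0) (Nat.mul_dvd_mul_right hd q)⟩, Subtype.ext ?_⟩)
      rw [coe_heckeAlphaBar, hx]
    · refine Subfield.subset_closure (Or.inl ⟨⟨_, jv_mem_X0Field L _ one_ne_zero (one_dvd _)⟩,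
        Subtype.ext ?_⟩)
      rw [coe_heckeAlphaBar, hx]
    · have : NeZero (M₀ * q * q) := ⟨mul_ne_zero (NeZero.ne (M₀ * q)) hq0⟩
      refine Subfield.subset_closure (Or.inr ⟨⟨_, jv_mem_X0Field L _ (mul_ne_zero hq0 hq0)
        (by rw [mul_assoc]; exact dvd_mul_left _ _)⟩, Subtype.ext ?_⟩)
      rw [coe_inclLevel, hx]

/-- The norm along `β` commutes with the inclusions of levels. -/
theorem norm_square_beta (hqM : ¬ q ∣ M) (f : Hecke.X0Field L (M₀ * q * q)) :
    haveI : NeZero (M * q) := ⟨mul_ne_zero (NeZero.ne M) hq.out.ne_zero⟩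
    haveI : NeZero (M * q * q) := ⟨mul_ne_zero (NeZero.ne (M * q)) hq.out.ne_zero⟩
    inclLevel L (Nat.mul_dvd_mul_right hMM q) (normAlong (heckeBetaBar L (M₀ * q) q) f) =
      normAlong (heckeBetaBar L (M * q) q)
        (inclLevel L (Nat.mul_dvd_mul_right (Nat.mul_dvd_mul_right hMM q) q) f) := by
  have hq0 := hq.out.ne_zero
  have : NeZero (M₀ * q) := ⟨mul_ne_zero (NeZero.ne M₀) hq0⟩
  have : NeZero (M * q) := ⟨mul_ne_zero (NeZero.ne M) hq0⟩
  have : NeZero (M * q * q) := ⟨mul_ne_zero (NeZero.ne (M * q)) hq0⟩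
  obtain ⟨hdA, hfA⟩ := finrankAlong_beta_eq (q := q) L (M * q) (dvd_mul_left q M)
  obtain ⟨hdα, hfα⟩ := finrankAlong_beta_eq (q := q) L (M₀ * q) (dvd_mul_left q M₀)
  refine Hecke.normAlong_baseChange ?_ hfα hfA (hdA.trans hdα.symm) ?_ f
  · exact AlgHom.ext fun x => Subtype.ext (by simp [coe_inclLevel])
  · refine closure_eq_top_top L hqM _ (fun c => Subfield.subset_closure
      (Or.inl ⟨algebraMap L _ c, AlgHom.commutes _ c⟩)) fun x hx => ?_
    rcases hx with ⟨d, hd, hx⟩ | hx | hx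
    · refine Subfield.subset_closure (Or.inl ⟨⟨_, jv_mem_X0Field L _
        (ne_zero_of_dvd_level hd) (hd.mul_right q)⟩, Subtype.ext ?_⟩)
      rw [coe_heckeBetaBar, hx, qExpand_jv q (ne_zero_of_dvd_level hd), mul_comm]
    · have : NeZero (M₀ * q * q) := ⟨mul_ne_zero (NeZero.ne (M₀ * q)) hq0⟩
      refine Subfield.subset_closure (Or.inr ⟨⟨_, jv_mem_X0Field L _ one_ne_zero (one_dvd _)⟩,
        Subtype.ext ?_⟩)
      rw [coe_inclLevel, hx]
    · refine Subfield.subset_closure (Or.inl ⟨⟨_, jv_mem_X0Field L _ hq0 (dvd_mul_left q M)⟩,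
        Subtype.ext ?_⟩)
      rw [coe_heckeBetaBar, hx, qExpand_jv q hq0]

omit [Algebra ℚ L] in
/-- Along a field map with range `G`, a norm of the shape `c yᵐ` gives the same for `G`. -/
theorem normPow_of_range {F F₂ Z : Type} [Field F] [Field F₂] [Field Z] [Algebra L F₂] [Algebra L Z]
    [Algebra F Z] (A : F₂ →ₐ[L] Z) {x : Z}
    (hrange : ∀ z : Z, z ∈ IntermediateField.adjoin F ({x} : Set Z) ↔ ∃ y, A y = z)
    {m : ℕ} {g : Z} (h : IsConstMulPow L m (normAlong A g)) : NormPow (F := F) L m x g := by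
  obtain ⟨c, y, hy⟩ := h
  let := algebraAlong A
  set G := IntermediateField.adjoin F ({x} : Set Z)
  let e0 : F₂ →+* G := A.toRingHom.codRestrict G.toSubfield fun y => (hrange _).mpr ⟨y, rfl⟩
  let e : F₂ ≃+* G := RingEquiv.ofBijective e0 ⟨e0.injective, fun z => by
    obtain ⟨y, hy⟩ := (hrange _).mp z.2
    exact ⟨y, Subtype.ext hy⟩⟩
  refine ⟨c, e y, ?_⟩
  have hn := Algebra.norm_eq_of_equiv_equiv e (RingEquiv.refl Z) (RingHom.ext fun a => rfl) g
  rw [RingEquiv.refl_apply] at hn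
  have h2 : (e (Algebra.norm F₂ g) : Z) = ((Algebra.norm G g : G) : Z) := by
    rw [hn, e.apply_symm_apply]
  rw [← h2, show Algebra.norm F₂ g = algebraMap L F₂ c * y ^ m from hy]
  show A (algebraMap L F₂ c * y ^ m) = _
  rw [map_mul, map_pow, A.commutes]
  rfl

/-- A field generated over the image of one map as the image of another. -/
theorem mem_adjoin_iff_range {L F F₂ Z : Type*} [Field L] [Field F] [Field F₂]
    [Field Z] [Algebra L F]
    [Algebra L F₂] [Algebra L Z] (φ : F →ₐ[L] Z) (A : F₂ →ₐ[L] Z) {x : Z}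
    (hφ : ∀ a, ∃ y, A y = φ a) (hx : ∃ y, A y = x)
    (h : ∀ G : IntermediateField L Z, (∀ a, φ a ∈ G) → x ∈ G → ∀ y, A y ∈ G) (z : Z) :
    letI := algebraAlong φ
    z ∈ IntermediateField.adjoin F ({x} : Set Z) ↔ ∃ y, A y = z := by
  let := algebraAlong φ
  have := isScalarTower_along φ
  constructor
  · intro hz
    induction hz using adjoin_induction with
    | mem w hw => rw [Set.mem_singleton_iff.mp hw]; exact hx
    | algebraMap a => exact hφ a
    | add u v _ _ hu hv =>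
      obtain ⟨⟨a, rfl⟩, b, rfl⟩ := And.intro hu hv
      exact ⟨a + b, map_add _ _ _⟩
    | inv u _ hu => obtain ⟨a, rfl⟩ := hu; exact ⟨a⁻¹, map_inv₀ _ _⟩
    | mul u v _ _ hu hv =>
      obtain ⟨⟨a, rfl⟩, b, rfl⟩ := And.intro hu hv
      exact ⟨a * b, map_mul _ _ _⟩
  · rintro ⟨y, rfl⟩
    exact h ((IntermediateField.adjoin F ({x} : Set Z)).restrictScalars L)
      (fun a => IntermediateField.algebraMap_mem (IntermediateField.adjoin F ({x} : Set Z)) a)
      (mem_adjoin_simple_self F x) y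

namespace HauptData

variable (M) in
/-- The field generated by `b` over the middle field is the image of `α`. -/
theorem mem_adjoin_b_iff (hn : n0 ∣ M) (hqM : ¬ q ∣ M) (z : Hecke.X0Field L (M * q * q)) :
    letI := midTopAlgebra (q := q) L M
    z ∈ IntermediateField.adjoin (Hecke.X0Field L M)
      ({D.bTop L M hn} : Set (Hecke.X0Field L (M * q * q))) ↔ ∃ y,
          heckeAlphaBar L (M * q) q y = z := by
  have := charZero_of_algebraRat L
  refine mem_adjoin_iff_range (midHom q L M) (heckeAlphaBar L (M * q) q)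
    (fun a => ⟨heckeBetaBar L M q a, rfl⟩)
    ⟨⟨D.tSer L, D.tSer_mem L _ (hn.mul_right q)⟩, Subtype.ext (by rw [coe_heckeAlphaBar]; rfl)⟩
    (fun G hGmid hb y => ?_) z
  set G' := G.map (Hecke.X0Field L (M * q * q)).val
  have hmem : ∀ x, x ∈ G → (x : LaurentSeries L) ∈ G' := fun x hx => ⟨x, hx, rfl⟩
  have hbG : L⟮D.tSer L⟯ ≤ G' := adjoin_simple_le_iff.mpr (hmem _ hb)
  have h1 : jv (1 : Lˣ) 1 ∈ G' := by
    rw [Igusa.jv_one_eq_qExpand, qExpand_one_apply]; exact hbG (D.jq_mem_adjoin_tSer L)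
  have hmul : ∀ d, d ∣ M → jv (1 : Lˣ) (d * q) ∈ G' := fun d hd => by
    have hd0 := ne_zero_of_dvd_level hd
    have h := hmem _ (hGmid ⟨_, jv_mem_X0Field L M hd0 hd⟩)
    rw [coe_midHom] at h
    rw [mul_comm, ← qExpand_jv q hd0]
    exact h
  obtain ⟨w, hw, hwy⟩ := (X0Field_le_iff L (M * q)).mpr
    (full_mul_le_of_top_any (NeZero.ne M) hqM hmul h1) y.2
  have e : w = heckeAlphaBar L (M * q) q y := Subtype.ext (by rw [coe_heckeAlphaBar]; exact hwy)
  exact e ▸ hw

variable (M) in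
/-- The field generated by `a` over the middle field is the image of `β`. -/
theorem mem_adjoin_a_iff (hn : n0 ∣ M) (hqM : ¬ q ∣ M) (z : Hecke.X0Field L (M * q * q)) :
    letI := midTopAlgebra (q := q) L M
    z ∈ IntermediateField.adjoin (Hecke.X0Field L M)
      ({D.aTop L M hn} : Set (Hecke.X0Field L (M * q * q))) ↔
        ∃ y, heckeBetaBar L (M * q) q y = z := by
  have := charZero_of_algebraRat L
  refine mem_adjoin_iff_range (midHom q L M) (heckeBetaBar L (M * q) q)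
    (fun a => ⟨inclLevel L (dvd_mul_right M q) a, Subtype.ext (by
      rw [coe_heckeBetaBar, coe_inclLevel, coe_midHom])⟩)
    ⟨heckeBetaBar L M q (D.tMid L M hn), rfl⟩ (fun G hGmid ha y => ?_) z
  -- the series which land in `F(a)`
  obtain ⟨G', hG'⟩ : ∃ G' : IntermediateField L (LaurentSeries L), ∀ u : LaurentSeries L,
      u ∈ G' ↔ ∃ z : Hecke.X0Field L (M * q * q), z ∈ G ∧ (z : LaurentSeries L) = qExpand L q u :=
    ⟨(G.map (Hecke.X0Field L (M * q * q)).val).comap (qExpandAlgHomC L q), fun u => Iff.rfl⟩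
  have haG : L⟮qExpand L q (D.tSer L)⟯ ≤ G' :=
    adjoin_simple_le_iff.mpr ((hG' _).mpr ⟨_, ha, D.coe_aTop L M hn⟩)
  have hjq : jqModC L = jv (1 : Lˣ) 1 := by rw [Igusa.jv_one_eq_qExpand, qExpand_one_apply]
  have hj : jv (1 : Lˣ) q ∈ G' := by
    refine haG ?_
    have h : qExpandAlgHomC L q (jqModC L) ∈ L⟮D.tSer L⟯.map (qExpandAlgHomC L q) :=
      ⟨_, D.jq_mem_adjoin_tSer L, rfl⟩
    rw [IntermediateField.adjoin_map, Set.image_singleton, qExpandAlgHomC_apply,
      qExpandAlgHomC_apply, hjq, qExpand_jv q one_ne_zero, mul_one] at h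
    exact h
  have hlow : ∀ d, d ∣ M → jv (1 : Lˣ) d ∈ G' := fun d hd =>
    (hG' _).mpr ⟨_, hGmid ⟨_, jv_mem_X0Field L M (ne_zero_of_dvd_level hd) hd⟩, coe_midHom q L M _⟩
  have hy : (y : LaurentSeries L) ∈ G' :=
    (X0Field_le_iff L (M * q)).mpr (full_mul_le_of_low_any (NeZero.ne M) hqM hlow hj) y.2
  obtain ⟨w, hw, hwy⟩ := (hG' _).mp hy
  have e : w = heckeBetaBar L (M * q) q y := Subtype.ext (by rw [coe_heckeBetaBar]; exact hwy)
  exact e ▸ hw

/-- The norm condition at `b`. -/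
theorem normPow_b (hn : n0 ∣ M) (hqM : ¬ q ∣ M) {m : ℕ} (f : Hecke.X0Field L (M₀ * q * q))
    (h : IsConstMulPow L m (normAlong (heckeAlphaBar L (M₀ * q) q) f)) :
    letI := midTopAlgebra (q := q) L M
    haveI : NeZero (M * q * q) := ⟨mul_ne_zero (mul_ne_zero (NeZero.ne M) hq.out.ne_zero)
        hq.out.ne_zero⟩
    NormPow (F := Hecke.X0Field L M) L m (D.bTop L M hn)
      (inclLevel L (Nat.mul_dvd_mul_right (Nat.mul_dvd_mul_right hMM q) q) f) := by
  let := midTopAlgebra (q := q) L M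
  have : NeZero (M * q * q) := ⟨mul_ne_zero (mul_ne_zero (NeZero.ne M) hq.out.ne_zero)
      hq.out.ne_zero⟩
  have : NeZero (M * q) := ⟨mul_ne_zero (NeZero.ne M) hq.out.ne_zero⟩
  refine normPow_of_range L (heckeAlphaBar L (M * q) q) (D.mem_adjoin_b_iff L M hn hqM) ?_
  rw [← norm_square_alpha L hMM hqM]
  obtain ⟨c, y, hy⟩ := h
  exact ⟨c, inclLevel L (Nat.mul_dvd_mul_right hMM q) y, by
    rw [hy, map_mul, map_pow, AlgHom.commutes]⟩

/-- The norm condition at `a`. -/
theorem normPow_a (hn : n0 ∣ M) (hqM : ¬ q ∣ M) {m : ℕ} (f : Hecke.X0Field L (M₀ * q * q))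
    (h : IsConstMulPow L m (normAlong (heckeBetaBar L (M₀ * q) q) f)) :
    letI := midTopAlgebra (q := q) L M
    haveI : NeZero (M * q * q) := ⟨mul_ne_zero (mul_ne_zero (NeZero.ne M) hq.out.ne_zero)
        hq.out.ne_zero⟩
    NormPow (F := Hecke.X0Field L M) L m (D.aTop L M hn)
      (inclLevel L (Nat.mul_dvd_mul_right (Nat.mul_dvd_mul_right hMM q) q) f) := by
  let := midTopAlgebra (q := q) L M
  have : NeZero (M * q * q) := ⟨mul_ne_zero (mul_ne_zero (NeZero.ne M) hq.out.ne_zero)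
      hq.out.ne_zero⟩
  have : NeZero (M * q) := ⟨mul_ne_zero (NeZero.ne M) hq.out.ne_zero⟩
  refine normPow_of_range L (heckeBetaBar L (M * q) q) (D.mem_adjoin_a_iff L M hn hqM) ?_
  rw [← norm_square_beta L hMM hqM]
  obtain ⟨c, y, hy⟩ := h
  exact ⟨c, inclLevel L (Nat.mul_dvd_mul_right hMM q) y, by
    rw [hy, map_mul, map_pow, AlgHom.commutes]⟩

end HauptData

/-- Divisibility of orders is inherited by the larger level. -/
theorem ordsDivisible_inclLevel {A B : ℕ} [NeZero A] [NeZero B] (hAB : A ∣ B) {m : ℕ}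
    {f : Hecke.X0Field L A} (h : OrdsDivisible (L := L) m f) :
    OrdsDivisible (L := L) m (inclLevel L hAB f) := by
  have := charZero_of_algebraRat L
  have hfin : FiniteAlong L (inclLevel L hAB) :=
    finiteAlong_of_jv L _ one_ne_zero (one_dvd _) ((coe_inclLevel L hAB _).trans (coe_jElt L A))
  have hint : (inclLevel L hAB).toRingHom.IsIntegral := by
    let := algebraAlong (inclLevel L hAB)
    have : Module.Finite (Hecke.X0Field L A) (Hecke.X0Field L B) := hfin
    exact fun x => Algebra.IsIntegral.isIntegral (R := Hecke.X0Field L A) x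
  intro w
  rw [Place.ord_restrictAlong _ hint]
  exact dvd_mul_of_dvd_right (h _) _

end Fermat.Agent.SquareLevel
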